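/-
Project D (S48, Deligne–Serre), part B, block B5, seam [B-heq], the diamond half:
`PhiDiamond1 M ι` from the algebraic inputs of `⟨d⟩^*` (block B4) and the analytic description of
the diamond automorphisms (block B1, descended to `ℚ̄`).

* `exists_corrOp_divisor` : THE DIVISOR STEP for the guarded correspondences `corrOp φ ψ` of
  `Defs/Model` (one lemma for `hecke1Bar`, `heckeStar1Bar` and `diamond1Bar`): if `n D = div f`
  then `corrOp φ ψ [D] = [D']` with `n D' = div (N_ψ (φ f))`
  (main's level-free `S37/Hecke/Principal.correspondence_principal`);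
* `normAlong_id` : the norm along the identity is the identity;
* `DiamondRep1 M ι` : the analytic description of `diamondAut M ℚ̄ d⁻¹` (`σ ∈ Γ₀(M)` with lower right
  entry `d`: `δ f` is represented by `(a ∣ σ, b ∣ σ)` if `f` is represented by `(a, b)`);
* **`phiDiamond1_of`** : `PhiDiamond1 M ι` (character step = main's level-free
  `CharProduct.isRootChar_prod_slash_pair` for a single representative).
-/
import Mathlib
import Fermat.Agent.S48.B.Defs.Spec
import Fermat.Agent.S37.Hecke.Principal
import Fermat.Agent.S30.Hecke.CharProduct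

set_option autoImplicit false

open CongruenceSubgroup UpperHalfPlane AlgebraicCurve ModularCurve ModularForm
open Matrix.SpecialLinearGroup
open scoped MatrixGroups ModularForm

noncomputable section

namespace Fermat.Agent.S48.B.Hecke.PhiDiamond

open Fermat.Agent.S30.Hecke.DoubleCoset Fermat.Agent.S30.Hecke.CharProduct
open Fermat.Agent.S30.Analytic.Character
open Fermat.Agent.S37.Hecke.Principal
open Fermat.Agent.S48.B.Defs.Spec Fermat.Agent.S48.B.Defs.Model

local notation "Kb" => AlgebraicClosure ℚ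

/-! ### the divisor step for a guarded correspondence -/

section Generic

variable {K F F' : Type*} [Field K] [Field F] [Field F'] [Algebra K F] [Algebra K F']

/-- **the divisor step**: `corrOp φ ψ [D] = [D']` with `n D' = div (N_ψ (φ f))` if `n D = div f` -/
theorem exists_corrOp_divisor {φ ψ : F →ₐ[K] F'} (h : CorrInputs φ ψ)
    (D : Divisor.degZero (K := K) (F := F)) {n : ℕ} {f : F} (hf : f ≠ 0)
    (hD : ∀ v : Place K F, (n : ℤ) * (D : Divisor K F) v = v.ord f) :
    ∃ D' : Divisor.degZero (K := K) (F := F), corrOp φ ψ (Pic0.mk D) = Pic0.mk D' ∧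
      ∀ v : Place K F, (n : ℤ) * (D' : Divisor K F) v = v.ord (normAlong ψ (φ f)) := by
  obtain ⟨hφ, hψ, hP, hfin, hFI, hN⟩ := h
  have := hP
  refine ⟨Pic0.degZeroCorrespondence φ ψ hφ hψ hFI D, ?_, fun v => ?_⟩
  · rw [corrOp_eq hφ hψ hFI hfin hN]
    exact Pic0.correspondence_mk φ ψ hφ hψ hFI hfin hN D
  · rw [Pic0.coe_degZeroCorrespondence]
    have h1 : ∀ v : Place K F, ((n : ℤ) • (D : Divisor K F)) v = v.ord f := by
      intro v
      rw [Finsupp.smul_apply, smul_eq_mul]
      exact hD v
    have h2 := correspondence_principal φ ψ hφ hψ hfin hN hf h1 v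
    rw [map_zsmul, Finsupp.smul_apply, smul_eq_mul] at h2
    exact h2

/-- the norm along the identity -/
theorem normAlong_id (f : F) : normAlong (AlgHom.id K F) f = f := by
  have h : (algebraAlong (AlgHom.id K F) : Algebra F F) = Algebra.id F := by
    apply Algebra.algebra_ext
    intro r
    rfl
  unfold normAlong
  rw [h]
  simp

end Generic

/-! ### the diamond half of [B-heq] -/

section Diamond

variable (M : ℕ) [NeZero M]

/-- **the analytic description of the diamond automorphisms over `ℚ̄`** (block B1 `DiamondAn`,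
descended along `ι`): for `σ ∈ Γ₀(M)` with lower right entry `d`, the function `diamondAut d⁻¹ f`
is represented by `(a ∣ σ, b ∣ σ)` as soon as `f` is represented by `(a, b)`. -/
def DiamondRep1 (ι : Kb →+* ℂ) : Prop :=
  ∀ (d : (ZMod M)ˣ) (σ : SL(2, ℤ)), IsSigma M σ (d : ZMod M) →
    ∀ (f : F1Bar M) (k : ℤ) (a b : ℍ → ℂ),
      IsRepOf1 M (coeffMap ι (f : LaurentSeries Kb)) k a b →
      IsRepOf1 M (coeffMap ι ((diamondAut M Kb d⁻¹ f : F1Bar M) : LaurentSeries Kb)) k
        (a ∣[k] σ) (b ∣[k] σ)

variable {M}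

theorem diamond1Bar_apply (d : (ZMod M)ˣ) (x : J1 M) :
    diamond1Bar M d x =
      corrOp (diamondAut M Kb d⁻¹).toAlgHom (AlgHom.id Kb (F1Bar M)) x := rfl

/-- **`PhiDiamond1`** from the algebraic inputs of `⟨d⟩^*` and the analytic description of the
diamond automorphisms -/
theorem phiDiamond1_of (ι : Kb →+* ℂ)
    (hcorr : ∀ d : (ZMod M)ˣ,
      CorrInputs (diamondAut M Kb d).toAlgHom (AlgHom.id Kb (F1Bar M)))
    (hrep : DiamondRep1 M ι) : PhiDiamond1 M ι := by
  intro d D hD x ψ hx
  obtain ⟨δ, hδ, hDrep⟩ := hD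
  obtain ⟨n, D0, f, k, a, b, hn, hf, rfl, hD0, hrepf, hroot⟩ := hx
  obtain ⟨D', hTD, hD'⟩ := exists_corrOp_divisor (hcorr d⁻¹) D0 hf hD0
  rw [normAlong_id] at hD'
  have hdet : ∀ x : Unit, 0 < (D.rep x).det.val := by
    intro x
    rw [show D.rep x = mapGL ℝ δ from hDrep]
    have h1 : ((mapGL ℝ δ : GL (Fin 2) ℝ)).det = 1 := by simp
    rw [h1]
    simp
  have hchar := isRootChar_prod_slash_pair D hdet hn hroot
  rw [Fintype.card_unit, Nat.cast_one, mul_one, Fintype.prod_unique, Fintype.prod_unique,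
    show D.rep default = mapGL ℝ δ from hDrep] at hchar
  refine ⟨n, D', diamondAut M Kb d⁻¹ f, k, a ∣[k] δ, b ∣[k] δ, hn, ?_, ?_, hD',
    hrep d δ hδ f k a b hrepf, hchar⟩
  · exact (map_ne_zero_iff _ (diamondAut M Kb d⁻¹).injective).mpr hf
  · rw [diamond1Bar_apply]
    exact hTD

end Diamond

end Fermat.Agent.S48.B.Hecke.PhiDiamond
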