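/-
Project D (S48, Deligne–Serre), part B, block B5, seam [B-heq], the diamond half, the descent:
`DiamondRep1 M ι` (the analytic description of `diamondAut M ℚ̄ d⁻¹` along `ι : ℚ̄ →+* ℂ`) from the two
B1 seams `Seams2.DiamondAn M` (the analytic form over `ℂ`) and `Seams.DiamondExists M`, through the
uniqueness and base change of the diamond automorphisms (helper8's `ES/DiamondUnique`).

* `coe_inv_eq_of_isSigma` : `σ ∈ Γ₀(M)` with lower right entry `d` has upper left entry `d⁻¹`;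
* **`diamondRep1_of`** : `DiamondAn M → DiamondExists M → DiamondRep1 M ι`;
* **`phiDiamond1_of_seams`** : `PhiDiamond1 M ι` from the two seams and the algebraic inputs of `⟨d⟩^*`.
-/
import Mathlib
import Fermat.Agent.S48.B.Defs.Spec
import Fermat.Agent.S48.B.B1.Seams
import Fermat.Agent.S48.B.B1.Seams2
import Fermat.Agent.S48.B.B1.Diamond
import Fermat.Agent.S48.B.ES.DiamondUnique
import Fermat.Agent.S48.B.Hecke.PhiDiamond

set_option autoImplicit false

open CongruenceSubgroup UpperHalfPlane ModularCurve ModularForm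
open Matrix.SpecialLinearGroup
open scoped MatrixGroups ModularForm

noncomputable section

namespace Fermat.Agent.S48.B.Hecke.DiamondDescent

open Fermat.Agent.S48.B.Defs.Spec Fermat.Agent.S48.B.Defs.Model
open Fermat.Agent.S48.B.ES.DiamondUnique
open Fermat.Agent.S48.B.Hecke.PhiDiamond

local notation "Kb" => AlgebraicClosure ℚ

variable {M : ℕ} [NeZero M]

omit [NeZero M] in
/-- `σ ∈ Γ₀(M)` with lower right entry `d` has upper left entry `d⁻¹` -/
theorem coe_inv_eq_of_isSigma {σ : SL(2, ℤ)} {d : (ZMod M)ˣ} (h : IsSigma M σ (d : ZMod M)) :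
    ((d⁻¹ : (ZMod M)ˣ) : ZMod M) = ((σ 0 0 : ℤ) : ZMod M) := by
  have hdet : σ 0 0 * σ 1 1 - σ 0 1 * σ 1 0 = 1 := by
    have := σ.det_coe
    rwa [Matrix.det_fin_two] at this
  have h1 : ((σ 0 0 : ℤ) : ZMod M) * (d : ZMod M) = 1 := by
    have h2 := congrArg (Int.cast : ℤ → ZMod M) hdet
    push_cast at h2
    rw [h.1, h.2, mul_zero, sub_zero] at h2
    exact h2
  calc ((d⁻¹ : (ZMod M)ˣ) : ZMod M)
      = ((d⁻¹ : (ZMod M)ˣ) : ZMod M) * (((σ 0 0 : ℤ) : ZMod M) * (d : ZMod M)) := by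
        rw [h1, mul_one]
    _ = ((σ 0 0 : ℤ) : ZMod M) * (((d⁻¹ : (ZMod M)ˣ) : ZMod M) * (d : ZMod M)) := by ring
    _ = ((σ 0 0 : ℤ) : ZMod M) := by rw [Units.inv_mul, mul_one]

/-- **the descent**: the analytic description of the diamond automorphisms over `ℚ̄` -/
theorem diamondRep1_of (ι : Kb →+* ℂ) (han : Fermat.Agent.S48.B.B1.Seams2.DiamondAn M)
    (hex : Fermat.Agent.S48.B.B1.Seams.DiamondExists M) : DiamondRep1 M ι := by
  intro d σ hσ f k a b hrep
  have hσ0 : σ ∈ Gamma0 M := Gamma0_mem.mpr hσ.1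
  obtain ⟨δC, hδC, hform⟩ := han σ hσ0 d⁻¹ (coe_inv_eq_of_isSigma hσ)
  obtain ⟨δK, hδK⟩ := hex Kb d⁻¹
  have hK : diamondAut M Kb d⁻¹ = δK := diamondAut_eq_of hδK
  have h1 := hform (baseChangeMap ι (F1 M) f) k a b ⟨hrep.ha, hrep.hb, hrep.hb0, hrep.eq⟩
  rw [← isDiamondAut_coeffMap_apply ι hδK hδC f] at h1
  refine ⟨Fermat.Agent.S48.B.B1.Diamond.isMF1_slash hrep.ha hσ0,
    Fermat.Agent.S48.B.B1.Diamond.isMF1_slash hrep.hb hσ0,
    Fermat.Agent.S24.RepHom.slash_ne_zero σ hrep.hb0, ?_⟩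
  rw [hK]
  exact h1

/-- **`PhiDiamond1`** from the two B1 seams and the algebraic inputs of `⟨d⟩^*` -/
theorem phiDiamond1_of_seams (ι : Kb →+* ℂ)
    (hcorr : ∀ d : (ZMod M)ˣ,
      CorrInputs (diamondAut M Kb d).toAlgHom (AlgHom.id Kb (F1Bar M)))
    (han : Fermat.Agent.S48.B.B1.Seams2.DiamondAn M)
    (hex : Fermat.Agent.S48.B.B1.Seams.DiamondExists M) : PhiDiamond1 M ι :=
  phiDiamond1_of ι hcorr (diamondRep1_of ι han hex)

end Fermat.Agent.S48.B.Hecke.DiamondDescent
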