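/-
Project D (S48, Deligne–Serre), part B, block B5, seam [B-heq], the `T_p^*` half:
`PhiHeckeStar1 M ι` from the analytic description of `ℚ̄(X₁(M))` (block B1: every element is a
quotient of forms on `Γ₁(M)`), the degree of `α` (block [B-ES]) and the algebraic inputs of
`α_* β^*` (block B4).

Direct twin of main's `S30/Hecke/PhiEquivariant.isPhiOf_hecke`:

* divisor step: `PhiDiamond.exists_corrOp_divisor` (`n D' = div (N_α (β f))`);
* analytic step: `NormG.Norm.isRepOfG_norm` for `Γ' = Γ₁(M) ⊓ Γ₀(p) ≤ Γ = Γ₁(M)`; the upper level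
  representation and the description of `β` come from helper8's `AtkinLehner.isRepOfG_raise`, the
  separation of the `p + 1` embeddings from `j(q^p)` (main's `S24/LmapSep`);
* character step: main's level-free `CharProduct.isRootChar_prod_slash_pair`.
-/
import Mathlib
import Fermat.Agent.S48.B.Defs.Spec
import Fermat.Agent.S48.B.ES.AtkinLehner
import Fermat.Agent.S48.B.Hecke.NormG.Norm
import Fermat.Agent.S48.B.Hecke.PhiDiamond
import Fermat.Agent.S48.B.Hecke.StarExport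
import Fermat.Agent.S30.Hecke.CharProduct
import Fermat.Agent.S24.LmapSep

set_option autoImplicit false
set_option linter.style.haveILetI false

open CongruenceSubgroup UpperHalfPlane AlgebraicCurve ModularCurve ModularForm
open Matrix.SpecialLinearGroup
open scoped MatrixGroups ModularForm Manifold

noncomputable section

namespace Fermat.Agent.S48.B.Hecke.PhiStar

open Fermat.Agent.S20 Fermat.Agent.S23.QRing
open Fermat.Agent.S30.Hecke.DoubleCoset Fermat.Agent.S30.Hecke.CharProduct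
open Fermat.Agent.S30.Analytic.Character
open Fermat.Agent.S37.Hecke.Principal
open Fermat.Agent.S48.B.Defs.Spec Fermat.Agent.S48.B.Defs.Model
open Fermat.Agent.S48.B.ES.RepG Fermat.Agent.S48.B.ES.AtkinLehner
open Fermat.Agent.S48.B.Hecke.NormG.Reps
open Fermat.Agent.S48.B.Hecke.PhiDiamond

local notation "Kb" => AlgebraicClosure ℚ

/-! ### the two spellings of a representation on `Γ₁(M)` -/

theorem isRepOfG_of_isRepOf1 {M : ℕ} {g : LaurentSeries ℂ} {k : ℤ} {a b : ℍ → ℂ}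
    (h : IsRepOf1 M g k a b) : IsRepOfG (Gamma1 M) g k a b :=
  ⟨h.ha, h.hb, h.hb0, h.eq⟩

theorem isRepOf1_of_isRepOfG {M : ℕ} {g : LaurentSeries ℂ} {k : ℤ} {a b : ℍ → ℂ}
    (h : IsRepOfG (Gamma1 M) g k a b) : IsRepOf1 M g k a b :=
  ⟨h.ha, h.hb, h.hb0, h.eq⟩

/-- **the analytic description of `ℚ̄(X₁(M))`** (block B1, `RepAll1.exists_rep1`): every element,
pushed to `ℂ((q))` along `ι`, is a quotient of two forms of the same weight on `Γ₁(M)` -/
def Rep1 (M : ℕ) [NeZero M] (ι : Kb →+* ℂ) : Prop :=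
  ∀ y : F1Bar M, ∃ (k : ℤ) (a b : ℍ → ℂ), IsRepOf1 M (coeffMap ι (y : LaurentSeries Kb)) k a b

section Upper

variable {M : ℕ} [NeZero M] (p : ℕ) [NeZero p] (ι : Kb →+* ℂ)

theorem coeffMap_algebraMap_eq_C (c : Kb) :
    coeffMap ι (algebraMap Kb (LaurentSeries Kb) c) = HahnSeries.C (ι c) := by
  rw [algebraMap_laurentSeries_eq_single, coeffMap_single]
  rfl

theorem coeffMap_coeffEmb_eq (z : LaurentSeries ℚ) :
    coeffMap ι (coeffEmb Kb z) = coeffEmb ℂ z := by
  rw [coeffEmb, coeffMap_coeffMap]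
  exact coeffMap_congr (RingHom.ext_rat _ _) z

/-- the elements of `F1 M`, with complex coefficients, are quotients of forms on `Γ₁(M)` -/
theorem coeffEmb_mem_repFieldG_of_mem_F1 (hrep : Rep1 M ι) {z : LaurentSeries ℚ} (hz : z ∈ F1 M) :
    coeffEmb ℂ z ∈ repFieldG (Gamma1 M) := by
  obtain ⟨k, a, b, h⟩ := hrep ⟨coeffEmb Kb z, coeffEmb_mem_laurentBaseChange Kb hz⟩
  rw [coeffMap_coeffEmb_eq] at h
  exact ⟨k, a, b, isRepOfG_of_isRepOf1 h⟩

/-- the rational series whose complexification is a quotient of forms on `Γ₁(M) ⊓ Γ₀(p)` -/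
def repSubQ (M p : ℕ) [NeZero M] [NeZero p] : IntermediateField ℚ (LaurentSeries ℚ) :=
  ((repFieldG (Gml M p)).comap (coeffEmb ℂ)).toIntermediateField fun r => by
    rw [Subfield.mem_comap, eq_ratCast, map_ratCast]
    exact SubfieldClass.ratCast_mem _ r

theorem mem_repSubQ {z : LaurentSeries ℚ} :
    z ∈ repSubQ M p ↔ coeffEmb ℂ z ∈ repFieldG (Gml M p) := Iff.rfl

theorem F1p_le_repSubQ (hpM : p.Coprime M) (hrep : Rep1 M ι) : F1p M p ≤ repSubQ M p := by
  refine sup_le ?_ ?_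
  · intro z hz
    obtain ⟨k, a, b, h⟩ := coeffEmb_mem_repFieldG_of_mem_F1 ι hrep hz
    exact ⟨k, a, b, isRepOfG_mono (Gml_le_Gamma1 M p) h⟩
  · rintro _ ⟨z, hz, rfl⟩
    obtain ⟨k, a, b, h⟩ := coeffEmb_mem_repFieldG_of_mem_F1 ι hrep hz
    rw [mem_repSubQ]
    show coeffEmb ℂ (qExpand ℚ p z) ∈ repFieldG (Gml M p)
    rw [coeffEmb_qExpand]
    exact ⟨k, _, _, isRepOfG_raise hpM h⟩

/-- **the upper level**: every element of `ℚ̄(X₁(M; p))`, pushed to `ℂ((q))` along `ι`, is a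
quotient of two forms on `Γ₁(M) ⊓ Γ₀(p)` -/
theorem coeffMap_mem_repFieldG_upper (hpM : p.Coprime M) (hrep : Rep1 M ι)
    {y : LaurentSeries Kb} (hy : y ∈ laurentBaseChange Kb (F1p M p)) :
    coeffMap ι y ∈ repFieldG (Gml M p) := by
  rw [mem_laurentBaseChange_iff] at hy
  induction hy using Subfield.closure_induction with
  | mem y hy =>
      rcases hy with ⟨c, rfl⟩ | ⟨z, hz, rfl⟩
      · rw [coeffMap_algebraMap_eq_C]
        exact const_mem_repFieldG _
      · rw [coeffMap_coeffEmb_eq]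
        exact F1p_le_repSubQ p ι hpM hrep hz
  | one => rw [map_one]; exact one_mem _
  | add x y _ _ hx hy => rw [map_add]; exact add_mem hx hy
  | neg x _ hx => rw [map_neg]; exact neg_mem hx
  | inv x _ hx => rw [map_inv₀]; exact inv_mem hx
  | mul x y _ _ hx hy => rw [map_mul]; exact mul_mem hx hy

end Upper

/-! ### the two homomorphisms to the fields of quotients of forms -/

section Homs

variable (M : ℕ) [NeZero M] (p : ℕ) [NeZero p] (ι : Kb →+* ℂ)

/-- `ℚ̄(X₁(M)) → ` quotients of forms on `Γ₁(M)` -/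
def rhoF (hrep : Rep1 M ι) : F1Bar M →+* repFieldG (Gamma1 M) where
  toFun y := ⟨coeffMap ι (y : LaurentSeries Kb), by
    obtain ⟨k, a, b, h⟩ := hrep y
    exact ⟨k, a, b, isRepOfG_of_isRepOf1 h⟩⟩
  map_one' := Subtype.ext (map_one _)
  map_mul' _ _ := Subtype.ext (map_mul _ _ _)
  map_zero' := Subtype.ext (map_zero _)
  map_add' _ _ := Subtype.ext (map_add _ _ _)

@[simp]
theorem coe_rhoF (hrep : Rep1 M ι) (y : F1Bar M) :
    ((rhoF M ι hrep y : repFieldG (Gamma1 M)) : LaurentSeries ℂ) =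
      coeffMap ι (y : LaurentSeries Kb) := rfl

/-- `ℚ̄(X₁(M; p)) → ` quotients of forms on `Γ₁(M) ⊓ Γ₀(p)` -/
def rhoE (hpM : p.Coprime M) (hrep : Rep1 M ι) :
    laurentBaseChange Kb (F1p M p) →+* repFieldG (Gml M p) where
  toFun y := ⟨coeffMap ι (y : LaurentSeries Kb), coeffMap_mem_repFieldG_upper p ι hpM hrep y.2⟩
  map_one' := Subtype.ext (map_one _)
  map_mul' _ _ := Subtype.ext (map_mul _ _ _)
  map_zero' := Subtype.ext (map_zero _)
  map_add' _ _ := Subtype.ext (map_add _ _ _)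

@[simp]
theorem coe_rhoE (hpM : p.Coprime M) (hrep : Rep1 M ι) (y : laurentBaseChange Kb (F1p M p)) :
    ((rhoE M p ι hpM hrep y : repFieldG (Gml M p)) : LaurentSeries ℂ) =
      coeffMap ι (y : LaurentSeries Kb) := rfl

/-! ### separation by `j(q^p)` -/

theorem jq_mem_F1 : jq ∈ F1 M := by
  have h := jqd_mem_F1 (M := M) (d := 1) (one_dvd M)
  rwa [qExpand_one_apply] at h

/-- `j(q^p)` in `ℚ̄(X₁(M; p))` -/
def jpBar : laurentBaseChange Kb (F1p M p) :=
  ⟨coeffEmb Kb (qExpand ℚ p jq),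
    coeffEmb_mem_laurentBaseChange Kb (qExpand_mem_F1p M p (jq_mem_F1 M))⟩

theorem coeffMap_jpBar :
    coeffMap ι ((jpBar M p : laurentBaseChange Kb (F1p M p)) : LaurentSeries Kb) =
      Fermat.Agent.S24.LmapSep.jdSeries p :=
  coeffMap_coeffEmb_eq ι _

omit [NeZero M] in
/-- `j(q^p)` is represented by `(E₄(pτ)³, Δ(pτ))` on `Γ₁(M) ⊓ Γ₀(p)` -/
theorem isRepOfG_jp :
    IsRepOfG (Gml M p) (Fermat.Agent.S24.LmapSep.jdSeries p) 12
      (Fermat.Agent.S24.LmapSep.numFun p) (Fermat.Agent.S24.LmapSep.denFun p) := by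
  have h := Fermat.Agent.S24.LmapSep.isRepOf_jd (N := p) (d := p) dvd_rfl
  exact ⟨h.ha.mono (GG_mono inf_le_right), h.hb.mono (GG_mono inf_le_right), h.hb0, h.eq⟩

open Fermat.Agent.S48.B.Hecke.NormG.Norm (TI) in
/-- **the embeddings attached to a family separated modulo `Γ₀(p)` are pairwise distinct** -/
theorem rho_injective (hpM : p.Coprime M) (hrep : Rep1 M ι) {X : Type*} (s : X → SL(2, ℤ))
    (hsep : ∀ x y, s y * (s x)⁻¹ ∈ Gamma0 p → x = y) :
    Function.Injective fun x : X =>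
      (LmapG (Γ := Gml M p) TI (s x) (slashPG_mdiff (Gml M p) (s x))).comp
        (rhoE M p ι hpM hrep) := by
  intro x y hxy
  apply hsep
  have h1 := congrArg
    (fun f : laurentBaseChange Kb (F1p M p) →+* LaurentSeries ℂ => f (jpBar M p)) hxy
  beta_reduce at h1
  rw [RingHom.comp_apply, RingHom.comp_apply] at h1
  have hr : IsRepOfG (Gml M p)
      ((rhoE M p ι hpM hrep (jpBar M p) : repFieldG (Gml M p)) : LaurentSeries ℂ) 12
      (Fermat.Agent.S24.LmapSep.numFun p) (Fermat.Agent.S24.LmapSep.denFun p) := by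
    rw [coe_rhoE, coeffMap_jpBar]
    exact isRepOfG_jp M p
  rw [LmapG_eq_div _ _ hr, LmapG_eq_div _ _ hr] at h1
  apply Fermat.Agent.S24.LmapSep.mem_Gamma0_of_Lmap_eq_mdiff (N := p) TI (s x) (s y)
  unfold Fermat.Agent.S24.LmapSep.jNrep
  rw [Fermat.Agent.S24.LmapSep.Lmap_jdRep_eq_div, Fermat.Agent.S24.LmapSep.Lmap_jdRep_eq_div]
  exact h1

end Homs

/-! ### the equivariance -/

section Main

variable {M : ℕ} [NeZero M] (ι : Kb →+* ℂ)

/-- the analytic description of `β` : `β f = f(q^p)` is represented by the translates by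
`diag(p, 1)` of the forms representing `f` -/
theorem isRepOfG_beta1 (p : ℕ) [NeZero p] (hpM : p.Coprime M) (hrep : Rep1 M ι) (f : F1Bar M)
    {k : ℤ} {a b : ℍ → ℂ} (h : IsRepOf1 M (coeffMap ι (f : LaurentSeries Kb)) k a b) :
    IsRepOfG (Gml M p)
      ((rhoE M p ι hpM hrep (beta1 M p Kb f) : repFieldG (Gml M p)) : LaurentSeries ℂ) k
      (a ∣[k] heckeDiagMatrix p) (b ∣[k] heckeDiagMatrix p) := by
  rw [coe_rhoE, coe_beta1, coeffMap_qExpand]
  exact isRepOfG_raise hpM (isRepOfG_of_isRepOf1 h)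

omit [NeZero M] in
/-- a star system is a system of representatives of `(Γ₁(M) ⊓ Γ₀(p)) \ Γ₁(M)` -/
theorem isSystemG_of_isStarSystem1 {p : ℕ} {X : Type*} {s : X → SL(2, ℤ)}
    (h : IsStarSystem1 M p s) : IsSystemG (Gml M p) s h.1 :=
  isSystemG_of_surj s h.1 (fun x y hxy => h.2.1 x y hxy.2) fun g hg => by
    obtain ⟨x, hx⟩ := h.2.2 g hg
    exact ⟨x, ⟨(Gamma1 M).mul_mem hg ((Gamma1 M).inv_mem (h.1 x)), hx⟩⟩

/-- a star system has `p + 1` elements -/
theorem card_of_isStarSystem1 {p : ℕ} (hp : p.Prime) (hpM : ¬ p ∣ M) {X : Type*} [Fintype X]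
    {s : X → SL(2, ℤ)} (h : IsStarSystem1 M p s) : Fintype.card X = p + 1 := by
  have h0 := Fermat.Agent.S48.B.Hecke.StarExport.isStarSystem1_sStar1 (M := M) hp hpM
  rw [card_eq_of_isSystemG s h.1 (isSystemG_of_isStarSystem1 h),
    ← card_eq_of_isSystemG _ h0.1 (isSystemG_of_isStarSystem1 h0), Fintype.card_option,
    Fintype.card_fin]

theorem heckeStar1Bar_apply (p : Nat.Primes) (x : J1 M) :
    haveI : NeZero (p : ℕ) := ⟨p.2.ne_zero⟩
    heckeStar1Bar M p x = corrOp (beta1 M p Kb) (alpha1 M p Kb) x := rfl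

/-- the degree of `α`, as a hypothesis (block [B-ES], `DegreeBridge1.finrankAlong_alpha1_of_seams`) -/
def DegAlpha1 (M : ℕ) [NeZero M] : Prop :=
  ∀ p : Nat.Primes, ¬ (p : ℕ) ∣ M →
    haveI : NeZero (p : ℕ) := ⟨p.2.ne_zero⟩
    finrankAlong Kb (alpha1 M p Kb) = (p : ℕ) + 1

/-- the algebraic inputs of `α_* β^*`, as a hypothesis (block B4) -/
def CorrStar1 (M : ℕ) [NeZero M] : Prop :=
  ∀ p : Nat.Primes, ¬ (p : ℕ) ∣ M →
    haveI : NeZero (p : ℕ) := ⟨p.2.ne_zero⟩
    CorrInputs (beta1 M p Kb) (alpha1 M p Kb)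

open Fermat.Agent.S48.B.Hecke.NormG.Norm (isRepOfG_norm) in
/-- **`PhiHeckeStar1`** : `Φ` intertwines `T_p^* = α_* β^*` on `J₁(M)` and the double coset operator of
`Γ₁(M) diag(p, 1) Γ₁(M)` on characters -/
theorem phiHeckeStar1_of (hrep : Rep1 M ι) (hdeg : DegAlpha1 M) (hcorr : CorrStar1 M) :
    PhiHeckeStar1 M ι := by
  intro p hpM X _ D hD x ψ hx
  haveI : NeZero (p : ℕ) := ⟨p.2.ne_zero⟩
  have hcop : (p : ℕ).Coprime M := (Nat.Prime.coprime_iff_not_dvd p.2).mpr hpM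
  obtain ⟨s, hsys, hDrep⟩ := hD
  obtain ⟨n, D0, f, k, a, b, hn, hf, rfl, hD0, hrepf, hroot⟩ := hx
  obtain ⟨D', hTD, hD'⟩ := exists_corrOp_divisor (hcorr p hpM) D0 hf hD0
  -- the field extension along `α`
  letI := algebraAlong (alpha1 M p Kb)
  have hfr : Module.finrank (F1Bar M) (laurentBaseChange Kb (F1p M p)) = (p : ℕ) + 1 :=
    hdeg p hpM
  haveI : FiniteDimensional (F1Bar M) (laurentBaseChange Kb (F1p M p)) :=
    Module.finite_of_finrank_pos (by rw [hfr]; exact Nat.succ_pos _)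
  haveI : Algebra.IsSeparable (F1Bar M) (laurentBaseChange Kb (F1p M p)) :=
    Algebra.IsAlgebraic.isSeparable_of_perfectField
  have hnorm : normAlong (alpha1 M p Kb) (beta1 M p Kb f) =
      Algebra.norm (F1Bar M) (beta1 M p Kb f) := rfl
  have hdet : ∀ x : X, 0 < (D.rep x).det.val := by
    intro x
    rw [hDrep, map_mul]
    have h1 : ((mapGL ℝ (s x) : GL (Fin 2) ℝ)).det = 1 := by simp
    rw [h1, mul_one]
    exact det_heckeDiagMatrix_pos (p : ℕ)
  have hslash : ∀ (c : ℍ → ℂ) (x : X),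
      c ∣[k] D.rep x = (c ∣[k] heckeDiagMatrix (p : ℕ)) ∣[k] s x := by
    intro c x
    rw [hDrep, SlashAction.slash_mul, ModularForm.SL_slash]
    rfl
  refine ⟨n, D', normAlong (alpha1 M p Kb) (beta1 M p Kb f), k * (Fintype.card X : ℤ),
    ∏ x, a ∣[k] D.rep x, ∏ x, b ∣[k] D.rep x, hn, ?_, ?_, hD', ?_,
    isRootChar_prod_slash_pair D hdet hn hroot⟩
  · rw [hnorm, Ne, Algebra.norm_eq_zero_iff]
    exact (map_ne_zero_iff _ (beta1 M p Kb).injective).mpr hf
  · rw [heckeStar1Bar_apply]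
    exact hTD
  · rw [Finset.prod_congr rfl fun x _ => hslash a x, Finset.prod_congr rfl fun x _ => hslash b x,
      hnorm]
    apply isRepOf1_of_isRepOfG
    have h2 := isRepOfG_norm (Gml_le_Gamma1 M p) (rhoF M ι hrep) (rhoE M p ι hcop hrep)
      (fun y => by
        rw [coe_rhoE, coe_rhoF]
        exact congrArg (coeffMap ι) (coe_alpha1 M p Kb y))
      s hsys.1 (isSystemG_of_isStarSystem1 hsys)
      (by rw [card_of_isStarSystem1 p.2 hpM hsys, hfr])
      (rho_injective M p ι hcop hrep s hsys.2.1) (beta1 M p Kb f)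
      (isRepOfG_beta1 ι p hcop hrep f hrepf)
    rw [coe_rhoF] at h2
    exact h2

end Main

end Fermat.Agent.S48.B.Hecke.PhiStar
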