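/-
Project D (S48, Deligne–Serre), part B, block B5, seam [B-heq], THE WIRING:
`PhiHeckeStar1 M ι`, `PhiDiamond1 M ι` and `PhiHecke1 M ι` from the NAMED seams of block B1
(`Seams.RepLe`, `Seams.Deg1`, `Seams2.Deg1p`, `Seams2.DiamondAn`, `Seams.DiamondExists`), through

* helper20's `RepAll1.exists_rep1`                       (`Rep1`),
* helper10's `DegreeBridge1.finrankAlong_alpha1_of_seams` (`DegAlpha1`),
* helper9's `Inj.Basics.corrInputs_of_isFF`              (`CorrStar1`, the diamond inputs),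
* `PhiStar.phiHeckeStar1_of`, `DiamondDescent.phiDiamond1_of_seams`, `StarExport.phiHecke1_of_star`.
-/
import Mathlib
import Fermat.Agent.S48.B.Defs.Spec
import Fermat.Agent.S48.B.B1.Seams
import Fermat.Agent.S48.B.B1.Seams2
import Fermat.Agent.S48.B.B1.RepAll1
import Fermat.Agent.S48.B.ES.DegreeBridge1
import Fermat.Agent.S48.B.Inj.Basics
import Fermat.Agent.S48.B.Hecke.PhiStar
import Fermat.Agent.S48.B.Hecke.DiamondDescent
import Fermat.Agent.S48.B.Hecke.StarExport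

set_option autoImplicit false
set_option linter.style.haveILetI false

open CongruenceSubgroup UpperHalfPlane AlgebraicCurve ModularCurve
open scoped MatrixGroups ModularForm IntermediateField

noncomputable section

namespace Fermat.Agent.S48.B.Hecke.Wire

open Fermat.Agent.S24.FF
open Fermat.Agent.S48.B.Defs.Spec Fermat.Agent.S48.B.Defs.Model
open Fermat.Agent.S48.B.B1.Seams Fermat.Agent.S48.B.B1.Seams2
open Fermat.Agent.S48.B.Hecke.PhiStar Fermat.Agent.S48.B.Hecke.PhiDiamond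
open Fermat.Agent.S48.B.Hecke.DiamondDescent

local notation "Kb" => AlgebraicClosure ℚ

variable {M : ℕ} [NeZero M]

/-! ### the three inputs of `PhiStar.phiHeckeStar1_of` -/

/-- `Rep1` from `RepLe` (helper20's `RepAll1.exists_rep1`) -/
theorem rep1_of_repLe (ι : Kb →+* ℂ) (hle : RepLe M) : Rep1 M ι := fun y => by
  obtain ⟨k, a, b, hr⟩ := Fermat.Agent.S48.B.B1.RepAll1.exists_rep1 M ι hle y.2
  exact ⟨k, a, b, ⟨hr.ha, hr.hb, hr.hb0, hr.eq⟩⟩

/-- `j` is a separating variable of the mixed level `(M; ℓ)` -/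
theorem isFF_jgen1p {ℓ : ℕ} [NeZero ℓ] (hℓ : ℓ.Prime) (hℓM : ¬ ℓ ∣ M) (h1 : Deg1 M)
    (hp : Deg1p M ℓ) : IsFF Kb (jgen1p M ℓ) := by
  refine ⟨?_, ?_⟩
  · have h := h1.1.transcendental
    unfold Transcendental at h ⊢
    intro halg
    apply h
    exact (isAlgebraic_algHom_iff
      (IntermediateField.inclusion (laurentBaseChange_mono Kb (F1_le_F1p M ℓ)))
      (IntermediateField.inclusion_injective _)).mp halg
  · apply Module.finite_of_finrank_pos
    rw [hp hℓ hℓM]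
    exact Nat.mul_pos (Fermat.Agent.S48.B.ES.DegreeBridge1.card_Q1_pos h1) (Nat.succ_pos ℓ)

/-- the degree of `α` from the seams (helper10's `DegreeBridge1`) -/
theorem degAlpha1_of_seams (h1 : Deg1 M) (hp : ∀ (ℓ : ℕ) [NeZero ℓ], Deg1p M ℓ) :
    DegAlpha1 M := fun p hpM => by
  haveI : NeZero (p : ℕ) := ⟨p.2.ne_zero⟩
  exact Fermat.Agent.S48.B.ES.DegreeBridge1.finrankAlong_alpha1_of_seams p.2 hpM h1 (hp (p : ℕ))

/-- the algebraic inputs of `T_p^* = α_* β^*` (helper9's `corrInputs_of_isFF`) -/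
theorem corrStar1_of (h1 : Deg1 M) (hp : ∀ (ℓ : ℕ) [NeZero ℓ], Deg1p M ℓ) : CorrStar1 M :=
  fun p hpM => by
  haveI : NeZero (p : ℕ) := ⟨p.2.ne_zero⟩
  exact Fermat.Agent.S48.B.Inj.Basics.corrInputs_of_isFF _ _ h1.1
    (isFF_jgen1p p.2 hpM h1 (hp (p : ℕ)))

/-- the algebraic inputs of the standard `T_p = β_* α^*` -/
theorem corrHecke1_of (h1 : Deg1 M) (hp : ∀ (ℓ : ℕ) [NeZero ℓ], Deg1p M ℓ) (p : Nat.Primes)
    (hpM : ¬ (p : ℕ) ∣ M) :
    haveI : NeZero (p : ℕ) := ⟨p.2.ne_zero⟩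
    CorrInputs (alpha1 M p Kb) (beta1 M p Kb) := by
  haveI : NeZero (p : ℕ) := ⟨p.2.ne_zero⟩
  exact Fermat.Agent.S48.B.Inj.Basics.corrInputs_of_isFF _ _ h1.1
    (isFF_jgen1p p.2 hpM h1 (hp (p : ℕ)))

/-- the algebraic inputs of `⟨d⟩^*` -/
theorem corrDiamond_of (h1 : Deg1 M) (d : (ZMod M)ˣ) :
    CorrInputs (diamondAut M Kb d).toAlgHom (AlgHom.id Kb (F1Bar M)) :=
  Fermat.Agent.S48.B.Inj.Basics.corrInputs_of_isFF _ _ h1.1 h1.1

/-! ### the three halves of [B-heq] on the seams of B1 -/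

/-- **`PhiHeckeStar1`** on `RepLe`, `Deg1`, `Deg1p` -/
theorem phiHeckeStar1_of_seams (ι : Kb →+* ℂ) (hle : RepLe M) (h1 : Deg1 M)
    (hp : ∀ (ℓ : ℕ) [NeZero ℓ], Deg1p M ℓ) : PhiHeckeStar1 M ι :=
  phiHeckeStar1_of ι (rep1_of_repLe ι hle) (degAlpha1_of_seams h1 hp) (corrStar1_of h1 hp)

/-- **`PhiDiamond1`** on `Deg1`, `DiamondAn`, `DiamondExists` -/
theorem phiDiamond1_of_b1 (ι : Kb →+* ℂ) (h1 : Deg1 M) (han : DiamondAn M)
    (hex : DiamondExists M) : PhiDiamond1 M ι :=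
  phiDiamond1_of_seams ι (corrDiamond_of h1) han hex

/-- **`PhiHecke1`** on the seams of B1 and the swap identity `T_p = ⟨p⟩_* T_p^*` on `J₁(M)` -/
theorem phiHecke1_of_seams (ι : Kb →+* ℂ) (hle : RepLe M) (h1 : Deg1 M)
    (hp : ∀ (ℓ : ℕ) [NeZero ℓ], Deg1p M ℓ) (han : DiamondAn M) (hex : DiamondExists M)
    (hswap : ∀ (p : Nat.Primes), ¬ (p : ℕ) ∣ M → ∃ d : (ZMod M)ˣ,
      (d : ZMod M) = ((p : ℕ) : ZMod M) ∧
        ∀ x : J1 M, hecke1Bar M p x = diamond1Bar M d (heckeStar1Bar M p x)) :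
    PhiHecke1 M ι :=
  Fermat.Agent.S48.B.Hecke.StarExport.phiHecke1_of_star ι (phiHeckeStar1_of_seams ι hle h1 hp)
    (phiDiamond1_of_b1 ι h1 han hex) hswap

end Fermat.Agent.S48.B.Hecke.Wire
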