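/-
Project D (S48, Deligne–Serre), part B, block B5 [B-heq], group-theory half:
the diamond operators on `Hom(Γ₁(M), A)`.

For `s ∈ Γ₀(M)` the conjugation `g ↦ s g s⁻¹` is an automorphism `conj1 s` of `Γ₁(M)`;
`diamondHom s φ = φ ∘ conj1 s` depends only on the class `d = χ s ∈ (ℤ/M)ˣ` of `s` (lower right
entry), is multiplicative in `d`, and commutes with the operators `τ_p` (`tau1T`, `tau1U`) of
`Gamma1Cosets`.  `diamondOp d` is the resulting action of `(ℤ/M)ˣ`.
-/
import Mathlib
import Fermat.Agent.S48.B.Hecke.Gamma1Cosets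

set_option autoImplicit false

open CongruenceSubgroup Matrix.SpecialLinearGroup ModularForm
open scoped MatrixGroups

noncomputable section

namespace Fermat.Agent.S48.B.Hecke.Diamond1

open Fermat.Agent.S30.Hecke.DoubleCoset Fermat.Agent.S30.Hecke.Gamma0Cosets
open Fermat.Agent.S48.B.Hecke.CosetRestrict Fermat.Agent.S48.B.Hecke.Gamma1Cosets

variable {M : ℕ}

/-! ### the conjugation automorphisms of `Γ₁(M)` -/

theorem conj_mem (s : Gamma0 M) (g : Gamma1 M) :
    ((s * incl M g * s⁻¹ : Gamma0 M) : SL(2, ℤ)) ∈ Gamma1 M := by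
  rw [mem_Gamma1_iff, map_mul, map_mul, map_inv, mul_comm (chi M s), mul_assoc, mul_inv_cancel,
    mul_one]
  exact (mem_Gamma1_iff M (incl M g)).mp g.2

/-- conjugation by `s ∈ Γ₀(M)` as an endomorphism of `Γ₁(M)` -/
def conj1 (s : Gamma0 M) : ↥(Gamma1 M) →* ↥(Gamma1 M) where
  toFun g := ⟨((s * incl M g * s⁻¹ : Gamma0 M) : SL(2, ℤ)), conj_mem s g⟩
  map_one' := by
    apply Subtype.ext
    simp
  map_mul' g h := by
    apply Subtype.ext
    simp [mul_assoc]

theorem incl_conj1 (s : Gamma0 M) (g : Gamma1 M) : incl M (conj1 s g) = s * incl M g * s⁻¹ :=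
  Subtype.ext rfl

theorem conj1_one (g : Gamma1 M) : conj1 (1 : Gamma0 M) g = g := by
  apply incl_injective M
  rw [incl_conj1, one_mul, inv_one, mul_one]

theorem conj1_mul (s s' : Gamma0 M) (g : Gamma1 M) :
    conj1 (s * s') g = conj1 s (conj1 s' g) := by
  apply incl_injective M
  rw [incl_conj1, incl_conj1, incl_conj1, mul_inv_rev]
  simp only [mul_assoc]

/-- conjugation by an element of `Γ₁(M)` itself -/
theorem conj1_incl (u g : Gamma1 M) : conj1 (incl M u) g = u * g * u⁻¹ := by
  apply incl_injective M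
  rw [incl_conj1, map_mul, map_mul, map_inv]

/-! ### the diamond operators -/

variable {A : Type*} [AddCommGroup A]

/-- `φ ↦ φ ∘ (conjugation by s)` on `Hom(Γ₁(M), A)` -/
def diamondHom (s : Gamma0 M) : (Additive (Gamma1 M) →+ A) →+ (Additive (Gamma1 M) →+ A) where
  toFun φ := φ.comp (MonoidHom.toAdditive (conj1 s))
  map_zero' := rfl
  map_add' _ _ := rfl

theorem diamondHom_apply (s : Gamma0 M) (φ : Additive (Gamma1 M) →+ A) (g : Gamma1 M) :
    diamondHom s φ (Additive.ofMul g) = φ (Additive.ofMul (conj1 s g)) := rfl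

theorem diamondHom_one (φ : Additive (Gamma1 M) →+ A) : diamondHom (1 : Gamma0 M) φ = φ := by
  refine AddMonoidHom.ext fun g' => ?_
  obtain ⟨g, rfl⟩ := Additive.ofMul.surjective g'
  rw [diamondHom_apply, conj1_one]

theorem diamondHom_mul (s s' : Gamma0 M) (φ : Additive (Gamma1 M) →+ A) :
    diamondHom (s * s') φ = diamondHom s' (diamondHom s φ) := by
  refine AddMonoidHom.ext fun g' => ?_
  obtain ⟨g, rfl⟩ := Additive.ofMul.surjective g'
  rw [diamondHom_apply, diamondHom_apply, diamondHom_apply, conj1_mul]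

/-- inner automorphisms act trivially on `Hom(Γ₁(M), A)` -/
theorem diamondHom_incl (u : Gamma1 M) (φ : Additive (Gamma1 M) →+ A) :
    diamondHom (incl M u) φ = φ := by
  refine AddMonoidHom.ext fun g' => ?_
  obtain ⟨g, rfl⟩ := Additive.ofMul.surjective g'
  rw [diamondHom_apply, conj1_incl, ofMul_mul, ofMul_mul, ofMul_inv, map_add, map_add, map_neg]
  abel

/-- **`diamondHom s` depends only on the class of `s`** -/
theorem diamondHom_congr {s s' : Gamma0 M} (h : chi M s = chi M s')
    (φ : Additive (Gamma1 M) →+ A) : diamondHom s φ = diamondHom s' φ := by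
  have hu : chi M (s'⁻¹ * s) = 1 := by
    rw [map_mul, map_inv, h, inv_mul_cancel]
  obtain ⟨u, hu'⟩ := (mem_range_incl_iff M _).mpr hu
  have hs : s = s' * incl M u := by
    rw [hu', mul_inv_cancel_left]
  rw [hs, diamondHom_mul]
  -- `diamondHom (incl u) (diamondHom s' φ) = diamondHom s' φ`
  exact diamondHom_incl u _

/-- the diamond operators commute with each other -/
theorem diamondHom_comm (s s' : Gamma0 M) (φ : Additive (Gamma1 M) →+ A) :
    diamondHom s (diamondHom s' φ) = diamondHom s' (diamondHom s φ) := by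
  rw [← diamondHom_mul, ← diamondHom_mul]
  exact diamondHom_congr (by rw [map_mul, map_mul, mul_comm]) φ

/-! ### commutation with the Hecke operators -/

variable {p : ℕ}

/-- **`τ_p` (`p ∤ M`) commutes with the diamond operators** -/
theorem tau1T_diamondHom (hp : p.Prime) (hpM : ¬ p ∣ M) (s : Gamma0 M)
    (φ : Additive (Gamma1 M) →+ A) :
    tau1T hp hpM (diamondHom s φ) = diamondHom s (tau1T hp hpM φ) :=
  (heckeHom_kerData_comp_conj (cosetT hp hpM) (chi M) (delta hp hpM) (chi_cosetT hp hpM)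
    (tcorr hp hpM) (pUnit hp hpM) (chi_tcorr hp hpM) (iota1 M) (incl M) (incl_injective M)
    (iota1_eq M) (mem_range_incl_iff M) (iota1_injective M) (cosetT_sep hp hpM) s (conj1 s)
    (incl_conj1 s) φ).symm

/-- **`τ_p` (`p ∣ M`) commutes with the diamond operators** -/
theorem tau1U_diamondHom (hp : p.Prime) (hpM : p ∣ M) (s : Gamma0 M)
    (φ : Additive (Gamma1 M) →+ A) :
    tau1U hp hpM (diamondHom s φ) = diamondHom s (tau1U hp hpM φ) :=
  (heckeHom_kerData_comp_conj (cosetU hp hpM) (chi M) (fun _ => 1) (chi_cosetU hp hpM)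
    (fun _ => 1) 1 (fun _ => by rw [map_one, one_mul]) (iota1 M) (incl M) (incl_injective M)
    (iota1_eq M) (mem_range_incl_iff M) (iota1_injective M) (cosetU_sep hp hpM) s (conj1 s)
    (incl_conj1 s) φ).symm

theorem tau1All_diamondHom (r : ℕ) (hr : r.Prime) (s : Gamma0 M)
    (φ : Additive (Gamma1 M) →+ A) :
    tau1All M r hr (diamondHom s φ) = diamondHom s (tau1All M r hr φ) := by
  by_cases h : r ∣ M
  · rw [tau1All_pos hr h]
    exact tau1U_diamondHom hr h s φ
  · rw [tau1All_neg hr h]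
    exact tau1T_diamondHom hr h s φ

/-! ### the action of `(ℤ/M)ˣ` -/

section Units

variable [NeZero M]

/-- **the diamond operator `⟨d⟩`** on `Hom(Γ₁(M), A)`, `d ∈ (ℤ/M)ˣ` -/
def diamondOp (d : (ZMod M)ˣ) : (Additive (Gamma1 M) →+ A) →+ (Additive (Gamma1 M) →+ A) :=
  diamondHom (chi_surjective M d).choose

theorem diamondOp_eq {d : (ZMod M)ˣ} {s : Gamma0 M} (hs : chi M s = d) :
    (diamondOp d : (Additive (Gamma1 M) →+ A) →+ (Additive (Gamma1 M) →+ A)) = diamondHom s := by
  refine AddMonoidHom.ext fun φ => ?_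
  exact diamondHom_congr ((chi_surjective M d).choose_spec.trans hs.symm) φ

theorem diamondOp_one (φ : Additive (Gamma1 M) →+ A) : diamondOp (1 : (ZMod M)ˣ) φ = φ := by
  rw [diamondOp_eq (s := 1) (map_one _), diamondHom_one]

theorem diamondOp_mul (d d' : (ZMod M)ˣ) (φ : Additive (Gamma1 M) →+ A) :
    diamondOp (d * d') φ = diamondOp d (diamondOp d' φ) := by
  obtain ⟨s, hs⟩ := chi_surjective M d
  obtain ⟨s', hs'⟩ := chi_surjective M d'
  rw [diamondOp_eq hs, diamondOp_eq hs', diamondOp_eq (s := s' * s)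
    (by rw [map_mul, hs, hs', mul_comm]), diamondHom_mul]

theorem diamondOp_comm (d d' : (ZMod M)ˣ) (φ : Additive (Gamma1 M) →+ A) :
    diamondOp d (diamondOp d' φ) = diamondOp d' (diamondOp d φ) := by
  rw [← diamondOp_mul, ← diamondOp_mul, mul_comm]

theorem tau1All_diamondOp (r : ℕ) (hr : r.Prime) (d : (ZMod M)ˣ)
    (φ : Additive (Gamma1 M) →+ A) :
    tau1All M r hr (diamondOp d φ) = diamondOp d (tau1All M r hr φ) := by
  obtain ⟨s, hs⟩ := chi_surjective M d
  rw [diamondOp_eq hs]
  exact tau1All_diamondHom r hr s φ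

end Units

end Fermat.Agent.S48.B.Hecke.Diamond1
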