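/-
Project D (S48, Deligne–Serre), part B, block B5 [B-heq], group-theory half:
the coset data of `Gamma1Cosets` / `Diamond1` in the spelling of `B/Defs/Spec.lean` (helper17):
`CosetSeam1 M` is a theorem.

* `diamondData s : CosetData (iota1 M) Unit` for `s ∈ Γ₀(M)`: the single representative `s`,
  cocycle `g ↦ s g s⁻¹`; `heckeHom_diamondData : (diamondData s).heckeHom = diamondHom s`;
* `isHeckeData1_cosetT1`, `isDiamondData1_diamondData`, **`cosetSeam1`**.
-/
import Mathlib
import Fermat.Agent.S48.B.Defs.Spec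
import Fermat.Agent.S48.B.Hecke.Diamond1

set_option autoImplicit false

open CongruenceSubgroup Matrix.SpecialLinearGroup ModularForm
open scoped MatrixGroups

noncomputable section

namespace Fermat.Agent.S48.B.Hecke.SpecExport

open Fermat.Agent.S30.Hecke.DoubleCoset Fermat.Agent.S30.Hecke.Gamma0Cosets
open Fermat.Agent.S30.Hecke.CharProduct
open Fermat.Agent.S48.B.Hecke.Gamma1Cosets Fermat.Agent.S48.B.Hecke.Diamond1
open Fermat.Agent.S48.B.Defs.Spec

variable {M : ℕ}

/-- `iota1 M` is the `incl (Gamma1 M)` of `S30/Hecke/CharProduct` -/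
theorem iota1_eq_incl (M : ℕ) : iota1 M = Fermat.Agent.S30.Hecke.CharProduct.incl (Gamma1 M) := rfl

/-! ### the coset datum of a diamond operator -/

/-- the coset datum with the single representative `s ∈ Γ₀(M)` -/
def diamondData (s : Gamma0 M) : CosetData (iota1 M) Unit where
  rep _ := iota M s
  perm _ := 1
  coc g _ := conj1 s g
  rel g _ := by
    rw [iota1_eq, iota1_eq, incl_conj1, map_mul, map_mul, map_inv]
    exact (inv_mul_cancel_right _ _).symm
  perm_mul _ _ _ := rfl
  coc_mul g h _ := map_mul (conj1 s) g h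

theorem diamondData_rep (s : Gamma0 M) : (diamondData s).rep () = mapGL ℝ (s : SL(2, ℤ)) := rfl

theorem heckeHom_diamondData {A : Type*} [AddCommGroup A] (s : Gamma0 M) :
    ((diamondData s).heckeHom : (Additive (Gamma1 M) →+ A) →+ (Additive (Gamma1 M) →+ A)) =
      diamondHom s := by
  refine AddMonoidHom.ext fun φ => AddMonoidHom.ext fun g' => ?_
  obtain ⟨g, rfl⟩ := Additive.ofMul.surjective g'
  rw [CosetData.heckeHom_apply, Fintype.sum_unique, diamondHom_apply]
  rfl

theorem heckeHomMul_diamondData {W : Type*} [CommGroup W] (s : Gamma0 M) (ψ : Gamma1 M →* W)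
    (g : Gamma1 M) : (diamondData s).heckeHomMul ψ g = ψ (conj1 s g) := by
  rw [CosetData.heckeHomMul_apply, Fintype.prod_unique]
  rfl

/-! ### the seam -/

theorem isSigma_coe (s : Gamma0 M) :
    IsSigma M (s : SL(2, ℤ)) ((chi M s : (ZMod M)ˣ) : ZMod M) :=
  ⟨Gamma0_mem.mp s.2, rfl⟩

theorem isHeckeData1_cosetT1 {p : ℕ} (hp : p.Prime) (hpM : ¬ p ∣ M) :
    IsHeckeData1 M p (cosetT1 hp hpM) where
  rep_some j := cosetT1_rep_some hp hpM j
  rep_none := by
    refine ⟨(sigma hp hpM : SL(2, ℤ)), ?_, cosetT1_rep_none hp hpM⟩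
    have h := isSigma_coe (sigma hp hpM)
    rwa [chi_sigma, coe_pUnit] at h

theorem isDiamondData1_diamondData (s : Gamma0 M) : IsDiamondData1 M (chi M s) (diamondData s) :=
  ⟨(s : SL(2, ℤ)), isSigma_coe s, rfl⟩

/-- **`CosetSeam1 M`** -/
theorem cosetSeam1 (M : ℕ) [NeZero M] : CosetSeam1 M := by
  refine ⟨fun p hp hpM => ⟨cosetT1 hp hpM, isHeckeData1_cosetT1 hp hpM⟩, fun d => ?_⟩
  obtain ⟨s, hs⟩ := chi_surjective M d
  exact ⟨diamondData s, hs ▸ isDiamondData1_diamondData s⟩

end Fermat.Agent.S48.B.Hecke.SpecExport
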