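/-
Project D (S48, Deligne–Serre), part B, block B5 [B-heq], group-theory half:
the coset data of the DUAL Hecke operator `T_p^* = Γ₁(M) [p, 0; 0, 1] Γ₁(M)` (`p ∤ M`).

`Γ₁(M) [p, 0; 0, 1] Γ₁(M) = σ_p⁻¹ Γ₁(M) [1, 0; 0, p] Γ₁(M)`: the representatives are `σ_p⁻¹ β_x`,
`β_x` the standard representatives of `T_p` (`Gamma1Cosets.cosetT1`).  Generic engine
(`kerDataMul`): multiplying the correction elements of `CosetRestrict.kerData` by a fixed `w`
conjugates the cocycle by `w`.  Hence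

* `cosetStar1 hp hpM : CosetData (iota1 M) (Option (Fin p))`, `cosetStar1_rep`, `cosetStar1_coc`,
  `cosetStar1_sep`;
* **`heckeHom_cosetStar1`** : `(cosetStar1).heckeHom φ = tau1T (diamondHom σ_p⁻¹ φ)`
  (`T_p^* = T_p ⟨p⟩⁻¹`), `heckeHomMul_cosetStar1` the multiplicative twin;
* `sStar1 hp hpM : Option (Fin p) → Γ₀(M)` with values in `Γ₁(M)` (`chi_sStar1`), `sStar1 none = 1`,
  **`cosetStar1_rep_eq`** : `rep x = [p, 0; 0, 1] * sStar1 x`;
* **`sStar1_inj`, `sStar1_surj`** : `sStar1` is a system of representatives of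
  `(Γ₁(M) ∩ Γ₀(p)) \ Γ₁(M)` (from the generic `sys1_inj`, `sys1_surj`).
-/
import Mathlib
import Fermat.Agent.S30.Hecke.CosetStarSys
import Fermat.Agent.S48.B.Hecke.Diamond1

set_option autoImplicit false

open CongruenceSubgroup Matrix.SpecialLinearGroup ModularForm
open scoped MatrixGroups

noncomputable section

namespace Fermat.Agent.S48.B.Hecke.Star1

open Fermat.Agent.S30.Hecke.DoubleCoset Fermat.Agent.S30.Hecke.Gamma0Cosets
open Fermat.Agent.S48.B.Hecke.CosetRestrict Fermat.Agent.S48.B.Hecke.Gamma1Cosets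
open Fermat.Agent.S48.B.Hecke.Diamond1

/-! ### the generic engine: multiplying the correction elements by a fixed element -/

section MulLeft

variable {Γ G : Type*} [Group Γ] [Group G] {ι : Γ →* G} {X : Type*}
  (D : CosetData ι X) {Q : Type*} [CommGroup Q] (χ : Γ →* Q) (δ : X → Q)
  (K : ∀ g x, χ (D.coc g x) * δ (D.perm g x) = δ x * χ g)
  (t : X → Γ) (c : Q) (ht : ∀ x, χ (t x) * δ x = c)
  {Γ₁ : Type*} [Group Γ₁] (ι₁ : Γ₁ →* G) (j : Γ₁ →* Γ)
  (hj : Function.Injective j) (hι : ∀ g, ι₁ g = ι (j g))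
  (hrange : ∀ γ : Γ, γ ∈ j.range ↔ χ γ = 1) (w : Γ)

include ht in
theorem chi_mul_left (x : X) : χ (w * t x) * δ x = χ w * c := by
  rw [map_mul, mul_assoc, ht]

/-- the coset data of `ker χ` with the representatives `ι (w * t x) * D.rep x` -/
def kerDataMul : CosetData ι₁ X :=
  kerData D χ δ K (fun x => w * t x) (χ w * c) (chi_mul_left χ δ t c ht w) ι₁ j hj hι hrange

theorem kerDataMul_rep (x : X) :
    (kerDataMul D χ δ K t c ht ι₁ j hj hι hrange w).rep x =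
      ι w * (kerData D χ δ K t c ht ι₁ j hj hι hrange).rep x := by
  unfold kerDataMul
  rw [kerData_rep, kerData_rep, map_mul, mul_assoc]

theorem kerDataMul_perm (g : Γ₁) (x : X) :
    (kerDataMul D χ δ K t c ht ι₁ j hj hι hrange w).perm g x =
      (kerData D χ δ K t c ht ι₁ j hj hι hrange).perm g x := by
  unfold kerDataMul
  rw [kerData_perm, kerData_perm]

/-- **the cocycle is conjugated by `w`** -/
theorem kerDataMul_coc (cs : Γ₁ →* Γ₁) (hcs : ∀ g, j (cs g) = w * j g * w⁻¹) (g : Γ₁) (x : X) :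
    (kerDataMul D χ δ K t c ht ι₁ j hj hι hrange w).coc g x =
      cs ((kerData D χ δ K t c ht ι₁ j hj hι hrange).coc g x) := by
  apply hj
  unfold kerDataMul
  rw [map_kerData_coc, hcs, map_kerData_coc, mul_inv_rev]
  simp only [mul_assoc]

theorem kerDataMul_sep (huniq : ∀ (x x' : X) (g : Γ), D.rep x = ι g * D.rep x' → x = x')
    (x x' : X) (g : Γ₁)
    (h : (kerDataMul D χ δ K t c ht ι₁ j hj hι hrange w).rep x =
      ι₁ g * (kerDataMul D χ δ K t c ht ι₁ j hj hι hrange w).rep x') : x = x' :=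
  kerData_sep D χ δ K (fun x => w * t x) (χ w * c) (chi_mul_left χ δ t c ht w) ι₁ j hj hι hrange
    huniq x x' g h

variable [Fintype X]

theorem heckeHom_kerDataMul {A : Type*} [AddCommGroup A] (cs : Γ₁ →* Γ₁)
    (hcs : ∀ g, j (cs g) = w * j g * w⁻¹) (φ : Additive Γ₁ →+ A) :
    (kerDataMul D χ δ K t c ht ι₁ j hj hι hrange w).heckeHom φ =
      (kerData D χ δ K t c ht ι₁ j hj hι hrange).heckeHom (φ.comp (MonoidHom.toAdditive cs)) := by
  refine AddMonoidHom.ext fun g' => ?_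
  obtain ⟨g, rfl⟩ := Additive.ofMul.surjective g'
  rw [CosetData.heckeHom_apply, CosetData.heckeHom_apply]
  refine Finset.sum_congr rfl fun x _ => ?_
  rw [kerDataMul_coc D χ δ K t c ht ι₁ j hj hι hrange w cs hcs]
  rfl

theorem heckeHomMul_kerDataMul {W : Type*} [CommGroup W] (cs : Γ₁ →* Γ₁)
    (hcs : ∀ g, j (cs g) = w * j g * w⁻¹) (ψ : Γ₁ →* W) :
    (kerDataMul D χ δ K t c ht ι₁ j hj hι hrange w).heckeHomMul ψ =
      (kerData D χ δ K t c ht ι₁ j hj hι hrange).heckeHomMul (ψ.comp cs) := by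
  refine MonoidHom.ext fun g => ?_
  rw [CosetData.heckeHomMul_apply, CosetData.heckeHomMul_apply]
  refine Finset.prod_congr rfl fun x _ => ?_
  rw [kerDataMul_coc D χ δ K t c ht ι₁ j hj hι hrange w cs hcs]
  rfl

end MulLeft

/-! ### the coset data of `T_p^*` on `Γ₁(M)` -/

section Star

variable {M p : ℕ}

/-- **the coset data of `Γ₁(M) [p, 0; 0, 1] Γ₁(M)`, `p ∤ M`**: representatives `σ_p⁻¹ [1, j; 0, p]`
and `[p, 0; 0, 1]` -/
def cosetStar1 (hp : p.Prime) (hpM : ¬ p ∣ M) : CosetData (iota1 M) (Option (Fin p)) :=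
  kerDataMul (cosetT hp hpM) (chi M) (delta hp hpM) (chi_cosetT hp hpM) (tcorr hp hpM)
    (pUnit hp hpM) (chi_tcorr hp hpM) (iota1 M) (incl M) (incl_injective M) (iota1_eq M)
    (mem_range_incl_iff M) (sigma hp hpM)⁻¹

theorem cosetStar1_rep (hp : p.Prime) (hpM : ¬ p ∣ M) (x : Option (Fin p)) :
    (cosetStar1 hp hpM).rep x = (iota M (sigma hp hpM))⁻¹ * (cosetT1 hp hpM).rep x := by
  unfold cosetStar1 cosetT1
  rw [kerDataMul_rep, map_inv]

theorem cosetStar1_rep_none (hp : p.Prime) (hpM : ¬ p ∣ M) :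
    (cosetStar1 hp hpM).rep none = heckeDiagMatrix p := by
  rw [cosetStar1_rep, cosetT1_rep_none, inv_mul_cancel_left]

theorem cosetStar1_rep_some (hp : p.Prime) (hpM : ¬ p ∣ M) (j : Fin p) :
    (cosetStar1 hp hpM).rep (some j) = (iota M (sigma hp hpM))⁻¹ * heckeMatrix p j := by
  rw [cosetStar1_rep, cosetT1_rep_some]

theorem cosetStar1_perm (hp : p.Prime) (hpM : ¬ p ∣ M) (g : Gamma1 M) (x : Option (Fin p)) :
    (cosetStar1 hp hpM).perm g x = (cosetT1 hp hpM).perm g x := by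
  unfold cosetStar1 cosetT1
  rw [kerDataMul_perm]

/-- the cocycle of `T_p^*` is the cocycle of `T_p` conjugated by `σ_p⁻¹` -/
theorem cosetStar1_coc (hp : p.Prime) (hpM : ¬ p ∣ M) (g : Gamma1 M) (x : Option (Fin p)) :
    (cosetStar1 hp hpM).coc g x = conj1 (sigma hp hpM)⁻¹ ((cosetT1 hp hpM).coc g x) :=
  kerDataMul_coc (cosetT hp hpM) (chi M) (delta hp hpM) (chi_cosetT hp hpM) (tcorr hp hpM)
    (pUnit hp hpM) (chi_tcorr hp hpM) (iota1 M) (incl M) (incl_injective M) (iota1_eq M)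
    (mem_range_incl_iff M) (sigma hp hpM)⁻¹ (conj1 (sigma hp hpM)⁻¹) (incl_conj1 _) g x

/-- the representatives of `T_p^*` on `Γ₁(M)` are separated -/
theorem cosetStar1_sep (hp : p.Prime) (hpM : ¬ p ∣ M) (x x' : Option (Fin p)) (g : Gamma1 M)
    (h : (cosetStar1 hp hpM).rep x = iota1 M g * (cosetStar1 hp hpM).rep x') : x = x' :=
  kerDataMul_sep _ _ _ _ _ _ _ _ _ _ _ _ _ (cosetT_sep hp hpM) x x' g h

/-- **`T_p^* = T_p ⟨p⟩⁻¹`** on `Hom(Γ₁(M), A)` -/
theorem heckeHom_cosetStar1 {A : Type*} [AddCommGroup A] (hp : p.Prime) (hpM : ¬ p ∣ M)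
    (φ : Additive (Gamma1 M) →+ A) :
    (cosetStar1 hp hpM).heckeHom φ = tau1T hp hpM (diamondHom (sigma hp hpM)⁻¹ φ) :=
  heckeHom_kerDataMul (cosetT hp hpM) (chi M) (delta hp hpM) (chi_cosetT hp hpM) (tcorr hp hpM)
    (pUnit hp hpM) (chi_tcorr hp hpM) (iota1 M) (incl M) (incl_injective M) (iota1_eq M)
    (mem_range_incl_iff M) (sigma hp hpM)⁻¹ (conj1 (sigma hp hpM)⁻¹) (incl_conj1 _) φ

/-- `T_p^* = ⟨p⟩⁻¹ T_p` -/
theorem heckeHom_cosetStar1' {A : Type*} [AddCommGroup A] (hp : p.Prime) (hpM : ¬ p ∣ M)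
    (φ : Additive (Gamma1 M) →+ A) :
    (cosetStar1 hp hpM).heckeHom φ = diamondHom (sigma hp hpM)⁻¹ (tau1T hp hpM φ) := by
  rw [heckeHom_cosetStar1, tau1T_diamondHom]

/-- the multiplicative twin -/
theorem heckeHomMul_cosetStar1 {W : Type*} [CommGroup W] (hp : p.Prime) (hpM : ¬ p ∣ M)
    (ψ : Gamma1 M →* W) :
    (cosetStar1 hp hpM).heckeHomMul ψ =
      (cosetT1 hp hpM).heckeHomMul (ψ.comp (conj1 (sigma hp hpM)⁻¹)) :=
  heckeHomMul_kerDataMul (cosetT hp hpM) (chi M) (delta hp hpM) (chi_cosetT hp hpM) (tcorr hp hpM)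
    (pUnit hp hpM) (chi_tcorr hp hpM) (iota1 M) (incl M) (incl_injective M) (iota1_eq M)
    (mem_range_incl_iff M) (sigma hp hpM)⁻¹ (conj1 (sigma hp hpM)⁻¹) (incl_conj1 _) ψ

/-- the operators `T_p` commute with the conjugations, multiplicatively -/
theorem heckeHomMul_cosetT1_comp_conj1 {W : Type*} [CommGroup W] (hp : p.Prime) (hpM : ¬ p ∣ M)
    (s : Gamma0 M) (ψ : Gamma1 M →* W) :
    (cosetT1 hp hpM).heckeHomMul (ψ.comp (conj1 s)) =
      ((cosetT1 hp hpM).heckeHomMul ψ).comp (conj1 s) := by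
  have h := tau1T_diamondHom hp hpM s (MonoidHom.toAdditive ψ)
  have h3 : diamondHom s (MonoidHom.toAdditive ψ) = MonoidHom.toAdditive (ψ.comp (conj1 s)) := rfl
  rw [h3] at h
  unfold tau1T at h
  rw [CosetData.heckeHom_toAdditive, CosetData.heckeHom_toAdditive] at h
  refine MonoidHom.ext fun g => ?_
  exact congrArg Additive.toMul (DFunLike.congr_fun h (Additive.ofMul g))

end Star

/-! ### the system of representatives of `(Γ₁(M) ∩ Γ₀(p)) \ Γ₁(M)` -/

section System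

variable {M p : ℕ}

theorem bezout (hp : p.Prime) (hpM : ¬ p ∣ M) :
    (p : ℤ) * Int.gcdA p M + (M : ℤ) * Int.gcdB p M = 1 := by
  have h := Int.gcd_eq_gcd_ab (p : ℤ) (M : ℤ)
  have hcop : Int.gcd (p : ℤ) (M : ℤ) = 1 := by
    rw [Int.gcd_natCast_natCast]
    exact (Nat.Prime.coprime_iff_not_dvd hp).mpr hpM
  rw [hcop] at h
  push_cast at h
  exact h.symm

/-- `s_none = 1`, `s_j = [1, j + B; -M, -M j + A p]` with `A p + B M = 1` (`σ_p = [A, -B; M, p]`) -/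
def sStar1 (hp : p.Prime) (hpM : ¬ p ∣ M) : Option (Fin p) → Gamma0 M
  | none => 1
  | some j => mkGamma0 M 1 (((j : ℕ) : ℤ) + Int.gcdB p M) (-(M : ℤ))
      (-((M : ℤ) * ((j : ℕ) : ℤ)) + Int.gcdA p M * (p : ℤ))
      (by linear_combination bezout hp hpM) (Dvd.dvd.neg_right (dvd_refl _))

theorem sStar1_none (hp : p.Prime) (hpM : ¬ p ∣ M) : sStar1 hp hpM none = 1 := rfl

/-- the values of `sStar1` lie in `Γ₁(M)` -/
theorem chi_sStar1 (hp : p.Prime) (hpM : ¬ p ∣ M) (x : Option (Fin p)) :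
    chi M (sStar1 hp hpM x) = 1 := by
  rcases x with _ | j
  · exact map_one _
  · apply Units.ext
    rw [coe_chi, Units.val_one]
    show (((!![(1 : ℤ), ((j : ℕ) : ℤ) + Int.gcdB p M; -(M : ℤ),
      -((M : ℤ) * ((j : ℕ) : ℤ)) + Int.gcdA p M * (p : ℤ)] : Matrix (Fin 2) (Fin 2) ℤ) 1 1 : ℤ) :
        ZMod M) = 1
    have hb := congrArg (Int.cast : ℤ → ZMod M) (bezout hp hpM)
    push_cast at hb
    simp only [Matrix.of_apply, Matrix.cons_val', Matrix.cons_val_one, Matrix.cons_val_fin_one]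
    push_cast
    rw [ZMod.natCast_self, zero_mul, add_zero] at hb
    rw [ZMod.natCast_self, zero_mul, neg_zero, zero_add, mul_comm]
    exact hb

theorem sStar1_mem (hp : p.Prime) (hpM : ¬ p ∣ M) (x : Option (Fin p)) :
    ((sStar1 hp hpM x : Gamma0 M) : SL(2, ℤ)) ∈ Gamma1 M :=
  (mem_Gamma1_iff M _).mpr (chi_sStar1 hp hpM x)

/-- `[1, j; 0, p] = σ_p [p, 0; 0, 1] s_j`, integrally -/
theorem relZ_sStar1 (hp : p.Prime) (hpM : ¬ p ∣ M) (j : Fin p) :
    repZ p (some j) =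
      (((sigma hp hpM : Gamma0 M) : SL(2, ℤ)) : Matrix (Fin 2) (Fin 2) ℤ) *
        (repZ p none *
          (((sStar1 hp hpM (some j) : Gamma0 M) : SL(2, ℤ)) : Matrix (Fin 2) (Fin 2) ℤ)) := by
  have hb := bezout hp hpM
  show _ = !![Int.gcdA p M, -Int.gcdB p M; (M : ℤ), (p : ℤ)] * (repZ p none *
    !![(1 : ℤ), ((j : ℕ) : ℤ) + Int.gcdB p M; -(M : ℤ),
      -((M : ℤ) * ((j : ℕ) : ℤ)) + Int.gcdA p M * (p : ℤ)])
  simp only [repZ, Matrix.mul_fin_two]
  exact of_eq (by linear_combination -hb) (by linear_combination -((j : ℕ) : ℤ) * hb) (by ring)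
    (by linear_combination -(p : ℤ) * hb)

/-- **`rep x = [p, 0; 0, 1] * s_x`** -/
theorem cosetStar1_rep_eq (hp : p.Prime) (hpM : ¬ p ∣ M) (x : Option (Fin p)) :
    (cosetStar1 hp hpM).rep x = heckeDiagMatrix p * iota M (sStar1 hp hpM x) := by
  rcases x with _ | j
  · rw [cosetStar1_rep_none, sStar1_none, map_one, mul_one]
  · rw [cosetStar1_rep_some, inv_mul_eq_iff_eq_mul]
    apply Units.ext
    have h1 : ((heckeMatrix p j : GL (Fin 2) ℝ) : Matrix (Fin 2) (Fin 2) ℝ) =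
        (repZ p (some j)).map (Int.castRingHom ℝ) := coe_repT hp.ne_zero (some j)
    have h2 : ((heckeDiagMatrix p : GL (Fin 2) ℝ) : Matrix (Fin 2) (Fin 2) ℝ) =
        (repZ p none).map (Int.castRingHom ℝ) := coe_repT hp.ne_zero none
    rw [Units.val_mul, Units.val_mul, h1, h2, coe_iota', coe_iota', ← Matrix.map_mul,
      ← Matrix.map_mul, ← relZ_sStar1 hp hpM j]

end System

/-! ### systems of representatives from coset data over `Γ₁(M)` -/

section Levels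

variable {M p : ℕ}

theorem Gamma0_mul_le (g : SL(2, ℤ)) (h : g ∈ Gamma0 (M * p)) : g ∈ Gamma0 p := by
  rw [Gamma0_mem, ZMod.intCast_zmod_eq_zero_iff_dvd] at h ⊢
  exact dvd_trans (by exact_mod_cast Dvd.intro_left M rfl) h

theorem mem_Gamma0_mul (hp : p.Prime) (hpM : ¬ p ∣ M) (g : Gamma0 M)
    (h : (g : SL(2, ℤ)) ∈ Gamma0 p) : (g : SL(2, ℤ)) ∈ Gamma0 (M * p) := by
  rw [Gamma0_mem, ZMod.intCast_zmod_eq_zero_iff_dvd] at h ⊢
  have hcop : IsCoprime (M : ℤ) (p : ℤ) := by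
    rw [Int.isCoprime_iff_gcd_eq_one, Int.gcd_natCast_natCast]
    exact (Nat.Coprime.symm ((Nat.Prime.coprime_iff_not_dvd hp).mpr hpM))
  have := hcop.mul_dvd (dvd_entry M g) h
  exact_mod_cast this

end Levels

section Sys

variable {M p : ℕ} [NeZero M] {X : Type*} (D : CosetData (iota1 M) X) (s : X → Gamma0 M)
  (hrep : ∀ x, D.rep x = heckeDiagMatrix p * iota M (s x))

include hrep in
theorem sys1_surj (hp : p ≠ 0) (x₀ : X) (h₀ : s x₀ = 1) (g : Gamma1 M) :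
    ∃ x, (g : SL(2, ℤ)) * ((s x : Gamma0 M) : SL(2, ℤ))⁻¹ ∈ Gamma0 p := by
  refine ⟨D.perm g x₀, ?_⟩
  have h1 := D.rel g x₀
  rw [hrep, hrep, h₀, map_one, mul_one, iota1_eq, iota1_eq] at h1
  have h2 : heckeDiagMatrix p * iota M (incl M g * (s (D.perm g x₀))⁻¹) =
      iota M (incl M (D.coc g x₀)) * heckeDiagMatrix p := by
    rw [map_mul, map_inv, ← mul_assoc, h1]
    simp only [mul_assoc, mul_inv_cancel, mul_one]
  exact Gamma0_mul_le _
    (Fermat.Agent.S30.Hecke.CosetStarSys.mem_Gamma0_mul_of_relZ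
      (Fermat.Agent.S30.Hecke.CosetStarSys.relZ_of_diag_rel hp h2))

include hrep in
theorem sys1_inj (hp : p.Prime) (hpM : ¬ p ∣ M) (hs : ∀ x, chi M (s x) = 1)
    (hsep : ∀ (x x' : X) (g : Gamma1 M), D.rep x = iota1 M g * D.rep x' → x = x') (x y : X)
    (h : ((s y : Gamma0 M) : SL(2, ℤ)) * ((s x : Gamma0 M) : SL(2, ℤ))⁻¹ ∈ Gamma0 p) :
    x = y := by
  have hk : ((s y * (s x)⁻¹ : Gamma0 M) : SL(2, ℤ)) ∈ Gamma0 (M * p) :=
    mem_Gamma0_mul hp hpM (s y * (s x)⁻¹) h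
  obtain ⟨c, hc⟩ := Fermat.Agent.S30.Hecke.CosetStarSys.exists_relZ_of_mem (N := M) hk
  have hchi : chi M c = 1 := by
    have he := entry_rel (M := M) (x := none) (x' := none) hc
    apply Units.ext
    rw [coe_chi, Units.val_one]
    have hk1 : chi M (s y * (s x)⁻¹) = 1 := by rw [map_mul, map_inv, hs, hs, inv_one, mul_one]
    have hk2 := congrArg (fun u : (ZMod M)ˣ => (u : ZMod M)) hk1
    simp only [coe_chi, Units.val_one] at hk2
    simp only [deltaZ, Int.cast_one, one_mul, mul_one] at he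
    rw [← he]
    exact hk2
  obtain ⟨c₁, hc₁⟩ := (mem_range_incl_iff M c).mpr hchi
  have h2 : heckeDiagMatrix p * iota M (s y * (s x)⁻¹) = iota M c * heckeDiagMatrix p :=
    Fermat.Agent.S30.Hecke.CosetStarSys.diag_rel_of_relZ hp.ne_zero hc
  refine (hsep y x c₁ ?_).symm
  rw [hrep, hrep, iota1_eq, hc₁, ← mul_assoc, ← h2, map_mul, map_inv]
  simp only [mul_assoc, inv_mul_cancel, mul_one]

end Sys

section Concrete

variable {M p : ℕ} [NeZero M]

/-- **`sStar1` is injective modulo `Γ₀(p)`** -/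
theorem sStar1_inj (hp : p.Prime) (hpM : ¬ p ∣ M) (x y : Option (Fin p))
    (h : ((sStar1 hp hpM y : Gamma0 M) : SL(2, ℤ)) *
      ((sStar1 hp hpM x : Gamma0 M) : SL(2, ℤ))⁻¹ ∈ Gamma0 p) : x = y :=
  sys1_inj (cosetStar1 hp hpM) (sStar1 hp hpM) (cosetStar1_rep_eq hp hpM) hp hpM
    (chi_sStar1 hp hpM) (cosetStar1_sep hp hpM) x y h

/-- **`sStar1` is surjective modulo `Γ₀(p)`** -/
theorem sStar1_surj (hp : p.Prime) (hpM : ¬ p ∣ M) (g : SL(2, ℤ)) (hg : g ∈ Gamma1 M) :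
    ∃ x, g * ((sStar1 hp hpM x : Gamma0 M) : SL(2, ℤ))⁻¹ ∈ Gamma0 p :=
  sys1_surj (cosetStar1 hp hpM) (sStar1 hp hpM) (cosetStar1_rep_eq hp hpM) hp.ne_zero none
    (sStar1_none hp hpM) ⟨g, hg⟩

end Concrete

end Fermat.Agent.S48.B.Hecke.Star1
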