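/-
Project D (S48, Deligne–Serre), part B, block B5 [B-heq], group-theory half:
the star datum of `Star1` in the spelling of `B/Defs/Spec.lean` (helper17), the independence of the
operators on characters from the choice of the standard data, and the reduction of `PhiHecke1` to
`PhiHeckeStar1` + `PhiDiamond1` (+ the swap identity `T_p = ⟨p⟩ T_p^*` on `J1 M`).

* `isStarSystem1_sStar1`, **`isHeckeStarData1_cosetStar1`**, `exists_heckeStarData1`;
* `heckeHomMul_eq_of_isHeckeData1` : every `D` with `IsHeckeData1 M p D` has the operator of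
  `cosetT1`; `heckeHomMul_of_isDiamondData1` : every `D` with `IsDiamondData1 M d D` acts by
  `ψ ↦ ψ ∘ conj1 s` for every `s ∈ Γ₀(M)` of class `d`;
* **`heckeHomMul_diamond_star`** : `⟨σ_p⟩ T_p^* = T_p` on characters;
* **`isPhiOf1_diamond_star`**, **`phiHecke1_of_star`**.
-/
import Mathlib
import Fermat.Agent.S48.B.Defs.Spec
import Fermat.Agent.S48.B.Hecke.SpecExport
import Fermat.Agent.S48.B.Hecke.Star1

set_option autoImplicit false

open CongruenceSubgroup Matrix.SpecialLinearGroup ModularForm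
open scoped MatrixGroups

noncomputable section

namespace Fermat.Agent.S48.B.Hecke.StarExport

open Fermat.Agent.S30.Hecke.DoubleCoset Fermat.Agent.S30.Hecke.Gamma0Cosets
open Fermat.Agent.S48.B.Hecke.Gamma1Cosets Fermat.Agent.S48.B.Hecke.Diamond1
open Fermat.Agent.S48.B.Hecke.Star1 Fermat.Agent.S48.B.Hecke.SpecExport
open Fermat.Agent.S48.B.Defs.Spec Fermat.Agent.S48.B.Defs.Model

local notation "Kb" => AlgebraicClosure ℚ

variable {M : ℕ}

/-! ### the star datum -/

section StarDatum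

variable [NeZero M] {p : ℕ}

theorem isStarSystem1_sStar1 (hp : p.Prime) (hpM : ¬ p ∣ M) :
    IsStarSystem1 M p (fun x => ((sStar1 hp hpM x : Gamma0 M) : SL(2, ℤ))) :=
  ⟨sStar1_mem hp hpM, sStar1_inj hp hpM, sStar1_surj hp hpM⟩

/-- **the star datum**: `cosetStar1` has the shape `IsHeckeStarData1` -/
theorem isHeckeStarData1_cosetStar1 (hp : p.Prime) (hpM : ¬ p ∣ M) :
    IsHeckeStarData1 M p (cosetStar1 hp hpM) :=
  ⟨fun x => ((sStar1 hp hpM x : Gamma0 M) : SL(2, ℤ)), isStarSystem1_sStar1 hp hpM,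
    cosetStar1_rep_eq hp hpM⟩

theorem exists_heckeStarData1 (hp : p.Prime) (hpM : ¬ p ∣ M) :
    ∃ D : CosetData (Fermat.Agent.S30.Hecke.CharProduct.incl (Gamma1 M)) (Option (Fin p)),
      IsHeckeStarData1 M p D :=
  ⟨cosetStar1 hp hpM, isHeckeStarData1_cosetStar1 hp hpM⟩

end StarDatum

/-! ### independence of the standard data -/

section Indep

variable {p : ℕ} {W : Type*} [CommGroup W]

/-- an element of `Γ₀(M)` from `IsSigma` -/
def sigmaElt {δ : SL(2, ℤ)} {d : ZMod M} (h : IsSigma M δ d) : Gamma0 M := ⟨δ, Gamma0_mem.mpr h.1⟩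

theorem coe_chi_sigmaElt {δ : SL(2, ℤ)} {d : ZMod M} (h : IsSigma M δ d) :
    ((chi M (sigmaElt h) : (ZMod M)ˣ) : ZMod M) = d := h.2

theorem iota_sigmaElt {δ : SL(2, ℤ)} {d : ZMod M} (h : IsSigma M δ d) :
    iota M (sigmaElt h) = mapGL ℝ δ := rfl

/-- **every standard datum of `T_p` has the operator of `cosetT1`** -/
theorem heckeHomMul_eq_of_isHeckeData1 (hp : p.Prime) (hpM : ¬ p ∣ M)
    (D : CosetData (iota1 M) (Option (Fin p))) (hD : IsHeckeData1 M p D) :
    (D.heckeHomMul : (Gamma1 M →* W) →* (Gamma1 M →* W)) = (cosetT1 hp hpM).heckeHomMul := by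
  obtain ⟨δ, hδ, hnone⟩ := hD.rep_none
  have hchi : chi M (sigma hp hpM * (sigmaElt hδ)⁻¹) = 1 := by
    rw [map_mul, map_inv, mul_inv_eq_one, chi_sigma]
    apply Units.ext
    rw [coe_pUnit, coe_chi_sigmaElt]
  obtain ⟨u, hu⟩ := (mem_range_incl_iff M _).mpr hchi
  refine (CosetData.heckeHomMul_eq_of_reps D (cosetT1 hp hpM) (iota1_injective M)
    (cosetT1_sep hp hpM) (Equiv.refl _) (fun x => Option.casesOn x u fun _ => 1) ?_).symm
  intro x
  rcases x with _ | j
  · show (cosetT1 hp hpM).rep none = iota1 M u * D.rep none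
    rw [cosetT1_rep_none, hnone, iota1_eq, hu, ← iota_sigmaElt hδ, map_mul, map_inv]
    simp only [mul_assoc, inv_mul_cancel_left]
  · show (cosetT1 hp hpM).rep (some j) = iota1 M 1 * D.rep (some j)
    rw [cosetT1_rep_some, hD.rep_some, map_one, one_mul]

theorem conj1_congr {s s' : Gamma0 M} (h : chi M s = chi M s') (ψ : Gamma1 M →* W) :
    ψ.comp (conj1 s) = ψ.comp (conj1 s') := by
  have h1 := diamondHom_congr h (MonoidHom.toAdditive ψ)
  refine MonoidHom.ext fun g => ?_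
  exact congrArg Additive.toMul (DFunLike.congr_fun h1 (Additive.ofMul g))

/-- **every standard datum of `⟨d⟩` acts by `ψ ↦ ψ ∘ conj1 s`**, `s ∈ Γ₀(M)` of class `d` -/
theorem heckeHomMul_of_isDiamondData1 (d : (ZMod M)ˣ) (D : CosetData (iota1 M) Unit)
    (hD : IsDiamondData1 M d D) (s : Gamma0 M) (hs : chi M s = d) (ψ : Gamma1 M →* W) :
    D.heckeHomMul ψ = ψ.comp (conj1 s) := by
  obtain ⟨δ, hδ, hrep⟩ := hD
  have hchi : chi M (sigmaElt hδ) = chi M s := by
    rw [hs]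
    apply Units.ext
    rw [coe_chi_sigmaElt]
  rw [← conj1_congr hchi ψ]
  have h := CosetData.heckeHomMul_eq_of_reps (M := W) D (diamondData (sigmaElt hδ))
    (iota1_injective M) (fun _ _ _ _ => rfl) (Equiv.refl _) (fun _ => 1) (fun x => by
      show (diamondData (sigmaElt hδ)).rep () = iota1 M 1 * D.rep ()
      rw [map_one, one_mul, hrep]
      rfl)
  rw [← h]
  refine MonoidHom.ext fun g => ?_
  rw [heckeHomMul_diamondData]
  rfl

/-- **`⟨σ_p⟩ T_p^* = T_p`** on characters -/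
theorem heckeHomMul_diamond_star (hp : p.Prime) (hpM : ¬ p ∣ M) (ψ : Gamma1 M →* W) :
    ((cosetStar1 hp hpM).heckeHomMul ψ).comp (conj1 (sigma hp hpM)) =
      (cosetT1 hp hpM).heckeHomMul ψ := by
  rw [heckeHomMul_cosetStar1, ← heckeHomMul_cosetT1_comp_conj1]
  congr 1
  refine MonoidHom.ext fun g => ?_
  show ψ (conj1 (sigma hp hpM)⁻¹ (conj1 (sigma hp hpM) g)) = ψ g
  rw [← conj1_mul, inv_mul_cancel, conj1_one]

end Indep

/-! ### `PhiHecke1` from `PhiHeckeStar1` and `PhiDiamond1` -/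

section Phi

variable [NeZero M] (ι : Kb →+* ℂ)

/-- **`Φ` intertwines `⟨p⟩_* T_p^*` and the standard `T_p` on characters** -/
theorem isPhiOf1_diamond_star (hstar : PhiHeckeStar1 M ι) (hdia : PhiDiamond1 M ι)
    (p : Nat.Primes) (hpM : ¬ (p : ℕ) ∣ M) (d : (ZMod M)ˣ) (hd : (d : ZMod M) = ((p : ℕ) : ZMod M))
    (D : CosetData (iota1 M) (Option (Fin (p : ℕ)))) (hD : IsHeckeData1 M p D)
    (x : J1 M) (ψ : Gamma1 M →* ℂˣ) (hx : IsPhiOf1 M ι x ψ) :
    IsPhiOf1 M ι (diamond1Bar M d (heckeStar1Bar M p x)) (D.heckeHomMul ψ) := by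
  have h1 : IsPhiOf1 M ι (heckeStar1Bar M p x) ((cosetStar1 p.2 hpM).heckeHomMul ψ) :=
    hstar p hpM (cosetStar1 p.2 hpM) (isHeckeStarData1_cosetStar1 p.2 hpM) x ψ hx
  have hs : chi M (sigma p.2 hpM) = d := by
    rw [chi_sigma]
    apply Units.ext
    rw [coe_pUnit, hd]
  have h2 : IsPhiOf1 M ι (diamond1Bar M d (heckeStar1Bar M p x))
      ((diamondData (sigma p.2 hpM)).heckeHomMul ((cosetStar1 p.2 hpM).heckeHomMul ψ)) :=
    hdia d (diamondData (sigma p.2 hpM))
      (hs ▸ isDiamondData1_diamondData (sigma p.2 hpM)) _ _ h1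
  rw [heckeHomMul_of_isDiamondData1 d (diamondData (sigma p.2 hpM))
    (hs ▸ isDiamondData1_diamondData (sigma p.2 hpM)) (sigma p.2 hpM) hs,
    heckeHomMul_diamond_star] at h2
  rw [heckeHomMul_eq_of_isHeckeData1 p.2 hpM D hD]
  exact h2

/-- **`PhiHecke1` from `PhiHeckeStar1`, `PhiDiamond1` and the swap identity** -/
theorem phiHecke1_of_star (hstar : PhiHeckeStar1 M ι) (hdia : PhiDiamond1 M ι)
    (hswap : ∀ (p : Nat.Primes), ¬ (p : ℕ) ∣ M → ∃ d : (ZMod M)ˣ,
      (d : ZMod M) = ((p : ℕ) : ZMod M) ∧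
        ∀ x : J1 M, hecke1Bar M p x = diamond1Bar M d (heckeStar1Bar M p x)) :
    PhiHecke1 M ι := by
  intro p hpM D hD x ψ hx
  obtain ⟨d, hd, hsw⟩ := hswap p hpM
  rw [hsw]
  exact isPhiOf1_diamond_star ι hstar hdia p hpM d hd D hD x ψ hx

end Phi

end Fermat.Agent.S48.B.Hecke.StarExport
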