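/-
Project D (S48, Deligne–Serre), part B, block B5 [B-heq], group-theory half:
the double-coset operators and the diamond operators on `Γ₁(M)` preserve parabolic homomorphisms.

* `heckeHom_isParabolicHom1` : for ANY coset data `D` over `iota1 M`, `D.heckeHom` preserves
  `IsParabolicHom (Gamma1 M)` (the Prelude's notion, generic in the subgroup);
* `diamondHom_isParabolicHom` : the diamond operators preserve it;
* `tau1Par R A M r hr`, `diamondPar R A s` `: Module.End R (parabolicHoms R (Gamma1 M) A)`;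
  they commute; compatibility with the change of coefficients `ℤ → R` (`castPar`) and with
  `baseChangeEquiv`;
* `Group.FG (Gamma1 M)` (finite index in `SL₂(ℤ)`).
-/
import Mathlib
import Fermat.Prelude.Def_ModularCurve_PeriodMap
import Fermat.Agent.S30.Hecke.Parabolic
import Fermat.Agent.S30.Lattice.BaseChange
import Fermat.Agent.S48.B.Hecke.Diamond1

set_option autoImplicit false

open CongruenceSubgroup ModularCurve.Period
open scoped MatrixGroups TensorProduct

noncomputable section

namespace Fermat.Agent.S48.B.Hecke.Parabolic1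

open Fermat.Agent.S30.Hecke.DoubleCoset Fermat.Agent.S30.Hecke.Gamma0Cosets
  Fermat.Agent.S30.Hecke.Parabolic Fermat.Agent.S30.Lattice.BaseChange
  Fermat.Agent.S48.B.Hecke.Gamma1Cosets Fermat.Agent.S48.B.Hecke.Diamond1

variable {M : ℕ}

/-- `Γ₁(M)` is finitely generated -/
instance instFGGamma1 (M : ℕ) [NeZero M] : Group.FG (Gamma1 M) :=
  Subgroup.fg_of_index_ne_zero (Gamma1 M)

/-! ### traces -/

theorem trace_pow_Gamma1 (g : Gamma1 M)
    (hg : ((g : SL(2, ℤ)) : Matrix (Fin 2) (Fin 2) ℤ).trace ^ 2 = 4) (m : ℕ) :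
    (((g ^ m : Gamma1 M) : SL(2, ℤ)) : Matrix (Fin 2) (Fin 2) ℤ).trace ^ 2 = 4 := by
  rw [SubgroupClass.coe_pow, Matrix.SpecialLinearGroup.coe_pow]
  exact trace_pow_sq_eq_four _ (g : SL(2, ℤ)).det_coe hg m

theorem trace_eq_of_conj1 {g h : Gamma1 M} {r : GL (Fin 2) ℝ}
    (hc : iota1 M h = r * iota1 M g * r⁻¹) :
    ((h : SL(2, ℤ)) : Matrix (Fin 2) (Fin 2) ℤ).trace =
      ((g : SL(2, ℤ)) : Matrix (Fin 2) (Fin 2) ℤ).trace :=
  trace_eq_of_conj (g := incl M g) (h := incl M h) hc

/-! ### the operators preserve parabolic homomorphisms -/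

section Preserve

variable {X : Type*} [Fintype X] {A : Type*} [AddCommGroup A]

/-- **any double-coset operator over `iota1 M` preserves parabolic homomorphisms** -/
theorem heckeHom_isParabolicHom1 (D : CosetData (iota1 M) X) {φ : Additive (Gamma1 M) →+ A}
    (hφ : IsParabolicHom (Gamma1 M) φ) : IsParabolicHom (Gamma1 M) (D.heckeHom φ) := by
  classical
  intro g hg
  refine D.heckeHom_apply_eq_zero φ g fun x m _ hfix => ?_
  refine hφ _ ?_
  rw [trace_eq_of_conj1 (D.map_coc_of_fixed hfix)]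
  exact trace_pow_Gamma1 g hg m

theorem tau1All_isParabolicHom {r : ℕ} (hr : r.Prime) {φ : Additive (Gamma1 M) →+ A}
    (hφ : IsParabolicHom (Gamma1 M) φ) : IsParabolicHom (Gamma1 M) (tau1All M r hr φ) := by
  by_cases h : r ∣ M
  · rw [tau1All_pos hr h]
    exact heckeHom_isParabolicHom1 _ hφ
  · rw [tau1All_neg hr h]
    exact heckeHom_isParabolicHom1 _ hφ

/-- the diamond operators preserve parabolic homomorphisms -/
theorem diamondHom_isParabolicHom (s : Gamma0 M) {φ : Additive (Gamma1 M) →+ A}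
    (hφ : IsParabolicHom (Gamma1 M) φ) : IsParabolicHom (Gamma1 M) (diamondHom s φ) := by
  intro g hg
  rw [diamondHom_apply]
  refine hφ _ ?_
  have h1 : ((conj1 s g : Gamma1 M) : SL(2, ℤ)) =
      (s : SL(2, ℤ)) * (g : SL(2, ℤ)) * (s : SL(2, ℤ))⁻¹ := rfl
  rw [h1, Matrix.SpecialLinearGroup.coe_mul, Matrix.SpecialLinearGroup.coe_mul,
    Matrix.trace_mul_cycle, ← Matrix.SpecialLinearGroup.coe_mul, inv_mul_cancel,
    Matrix.SpecialLinearGroup.coe_one, one_mul]
  exact hg

end Preserve

/-! ### the bundled operators on `parabolicHoms` -/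

section Bundled

variable (R : Type*) [Semiring R] (A : Type*) [AddCommGroup A] [Module R A]

/-- the `R`-linear version of `tau1All` -/
def tau1AllLin (M : ℕ) (r : ℕ) (hr : r.Prime) :
    (Additive (Gamma1 M) →+ A) →ₗ[R] (Additive (Gamma1 M) →+ A) :=
  if h : r ∣ M then (cosetU1 hr h).heckeLin R else (cosetT1 hr h).heckeLin R

theorem tau1AllLin_apply (M : ℕ) (r : ℕ) (hr : r.Prime) (φ : Additive (Gamma1 M) →+ A) :
    tau1AllLin R A M r hr φ = tau1All M r hr φ := by
  by_cases h : r ∣ M
  · rw [tau1All_pos hr h, tau1AllLin, dif_pos h]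
    rfl
  · rw [tau1All_neg hr h, tau1AllLin, dif_neg h]
    rfl

/-- **the Hecke operator `τ_r` on `parabolicHoms R (Gamma1 M) A`** -/
def tau1Par (M : ℕ) (r : ℕ) (hr : r.Prime) : Module.End R (parabolicHoms R (Gamma1 M) A) :=
  (tau1AllLin R A M r hr).restrict (p := parabolicHoms R (Gamma1 M) A)
    (q := parabolicHoms R (Gamma1 M) A) fun φ hφ => by
      rw [tau1AllLin_apply]
      exact tau1All_isParabolicHom hr hφ

theorem coe_tau1Par (M : ℕ) (r : ℕ) (hr : r.Prime) (φ : parabolicHoms R (Gamma1 M) A) :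
    ((tau1Par R A M r hr φ : parabolicHoms R (Gamma1 M) A) : Additive (Gamma1 M) →+ A) =
      tau1All M r hr (φ : Additive (Gamma1 M) →+ A) := by
  show tau1AllLin R A M r hr φ = _
  rw [tau1AllLin_apply]

/-- the `R`-linear version of `diamondHom` -/
def diamondLin (s : Gamma0 M) :
    (Additive (Gamma1 M) →+ A) →ₗ[R] (Additive (Gamma1 M) →+ A) where
  toFun φ := diamondHom s φ
  map_add' φ ψ := map_add (diamondHom s) φ ψ
  map_smul' _ _ := rfl

/-- **the diamond operator of `s ∈ Γ₀(M)` on `parabolicHoms R (Gamma1 M) A`** -/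
def diamondPar (s : Gamma0 M) : Module.End R (parabolicHoms R (Gamma1 M) A) :=
  (diamondLin R A s).restrict (p := parabolicHoms R (Gamma1 M) A)
    (q := parabolicHoms R (Gamma1 M) A) fun _ hφ => diamondHom_isParabolicHom s hφ

theorem coe_diamondPar (s : Gamma0 M) (φ : parabolicHoms R (Gamma1 M) A) :
    ((diamondPar R A s φ : parabolicHoms R (Gamma1 M) A) : Additive (Gamma1 M) →+ A) =
      diamondHom s (φ : Additive (Gamma1 M) →+ A) := rfl

/-- `diamondPar s` depends only on the class of `s` -/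
theorem diamondPar_congr {s s' : Gamma0 M} (h : chi M s = chi M s') :
    diamondPar R A s = diamondPar R A s' := by
  refine LinearMap.ext fun φ => Subtype.ext ?_
  rw [coe_diamondPar, coe_diamondPar]
  exact diamondHom_congr h _

theorem diamondPar_one : diamondPar R A (1 : Gamma0 M) = 1 := by
  refine LinearMap.ext fun φ => Subtype.ext ?_
  rw [coe_diamondPar, diamondHom_one]
  rfl

theorem diamondPar_mul (s s' : Gamma0 M) :
    diamondPar R A (s * s') = diamondPar R A s' * diamondPar R A s := by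
  refine LinearMap.ext fun φ => Subtype.ext ?_
  rw [coe_diamondPar, diamondHom_mul]
  rfl

/-- the diamond operators commute -/
theorem diamondPar_comm (s s' : Gamma0 M) :
    diamondPar R A s * diamondPar R A s' = diamondPar R A s' * diamondPar R A s := by
  refine LinearMap.ext fun φ => Subtype.ext ?_
  exact diamondHom_comm s s' _

/-- **`τ_r` commutes with the diamond operators** -/
theorem tau1Par_diamondPar (r : ℕ) (hr : r.Prime) (s : Gamma0 M) :
    tau1Par R A M r hr * diamondPar R A s = diamondPar R A s * tau1Par R A M r hr := by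
  refine LinearMap.ext fun φ => Subtype.ext ?_
  show ((tau1Par R A M r hr (diamondPar R A s φ) : parabolicHoms R (Gamma1 M) A) :
      Additive (Gamma1 M) →+ A) = _
  rw [coe_tau1Par, coe_diamondPar]
  show _ = diamondHom s ((tau1Par R A M r hr φ : parabolicHoms R (Gamma1 M) A) :
    Additive (Gamma1 M) →+ A)
  rw [coe_tau1Par]
  exact tau1All_diamondHom r hr s _

end Bundled

/-- naturality of `tau1All` in the coefficients -/
theorem comp_tau1All {A B : Type*} [AddCommGroup A] [AddCommGroup B] (f : A →+ B)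
    (r : ℕ) (hr : r.Prime) (φ : Additive (Gamma1 M) →+ A) :
    f.comp (tau1All M r hr φ) = tau1All M r hr (f.comp φ) := by
  by_cases h : r ∣ M
  · rw [tau1All_pos hr h, tau1All_pos hr h]
    exact CosetData.comp_heckeHom _ f φ
  · rw [tau1All_neg hr h, tau1All_neg hr h]
    exact CosetData.comp_heckeHom _ f φ

/-- naturality of `diamondHom` in the coefficients -/
theorem comp_diamondHom {A B : Type*} [AddCommGroup A] [AddCommGroup B] (f : A →+ B)
    (s : Gamma0 M) (φ : Additive (Gamma1 M) →+ A) :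
    f.comp (diamondHom s φ) = diamondHom s (f.comp φ) := rfl

section Cast

variable [NeZero M] (R : Type*) [CommRing R] [Module.Flat ℤ R]

omit [NeZero M] [Module.Flat ℤ R] in
/-- **`τ_r` is compatible with the change of coefficients `ℤ → R`** -/
theorem tau1Par_castPar (r : ℕ) (hr : r.Prime) (φ : parabolicHoms ℤ (Gamma1 M) ℤ) :
    tau1Par R R M r hr (castPar (Gamma1 M) R φ) =
      castPar (Gamma1 M) R (tau1Par ℤ ℤ M r hr φ) := by
  apply Subtype.ext
  rw [coe_tau1Par]
  have h1 : ((castPar (Gamma1 M) R φ : parabolicHoms R (Gamma1 M) R) :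
      Additive (Gamma1 M) →+ R) = (Int.castAddHom R).comp (φ : Additive (Gamma1 M) →+ ℤ) := rfl
  have h2 : ((castPar (Gamma1 M) R (tau1Par ℤ ℤ M r hr φ) : parabolicHoms R (Gamma1 M) R) :
      Additive (Gamma1 M) →+ R) = (Int.castAddHom R).comp
        ((tau1Par ℤ ℤ M r hr φ : parabolicHoms ℤ (Gamma1 M) ℤ) : Additive (Gamma1 M) →+ ℤ) := rfl
  rw [h1, h2, coe_tau1Par, comp_tau1All]

omit [NeZero M] [Module.Flat ℤ R] in
/-- the diamond operators are compatible with the change of coefficients `ℤ → R` -/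
theorem diamondPar_castPar (s : Gamma0 M) (φ : parabolicHoms ℤ (Gamma1 M) ℤ) :
    diamondPar R R s (castPar (Gamma1 M) R φ) =
      castPar (Gamma1 M) R (diamondPar ℤ ℤ s φ) :=
  Subtype.ext rfl

/-- **`τ_r` on `Hom_par(Γ₁(M), R)` is the base change of `τ_r` on `Hom_par(Γ₁(M), ℤ)`** -/
theorem baseChangeEquiv_tau1Par (r : ℕ) (hr : r.Prime)
    (x : R ⊗[ℤ] (parabolicHoms ℤ (Gamma1 M) ℤ)) :
    baseChangeEquiv (Gamma1 M) R ((tau1Par ℤ ℤ M r hr).baseChange R x) =
      tau1Par R R M r hr (baseChangeEquiv (Gamma1 M) R x) :=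
  baseChangeEquiv_comm (Gamma1 M) R (tau1Par ℤ ℤ M r hr) (tau1Par R R M r hr)
    (tau1Par_castPar R r hr) x

/-- the diamond operators on `Hom_par(Γ₁(M), R)` are the base change of those on
`Hom_par(Γ₁(M), ℤ)` -/
theorem baseChangeEquiv_diamondPar (s : Gamma0 M)
    (x : R ⊗[ℤ] (parabolicHoms ℤ (Gamma1 M) ℤ)) :
    baseChangeEquiv (Gamma1 M) R ((diamondPar ℤ ℤ s).baseChange R x) =
      diamondPar R R s (baseChangeEquiv (Gamma1 M) R x) :=
  baseChangeEquiv_comm (Gamma1 M) R (diamondPar ℤ ℤ s) (diamondPar R R s)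
    (diamondPar_castPar R s) x

end Cast

end Fermat.Agent.S48.B.Hecke.Parabolic1
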