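/-
Project D (S48, Deligne–Serre), part B, block B5 [B-heq], group-theory half (generic engine).

Coset data with a character.  `D : CosetData ι X` on a group `Γ`, a character `χ : Γ →* Q`
(`Q` a commutative group) and weights `δ : X → Q` with

  `χ (D.coc g x) * δ (D.perm g x) = δ x * χ g`     (K)

and correction elements `t : X → Γ` with `χ (t x) * δ x = c` constant.  Then the twisted
representatives `ι (t x) * D.rep x` form coset data for the kernel of `χ` (pulled back to any group
`Γ₁` with an injective `j : Γ₁ →* Γ` of image `ker χ`), and the operator commutes with the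
conjugation by every element of `Γ` (the "diamond" automorphisms of `ker χ`).

Instance (file `Gamma1Cosets`): `Γ = Γ₀(M)`, `χ = ` lower right entry mod `M`, `ker χ = Γ₁(M)`,
`D = ` the coset data of `T_p` on `Γ₀(M)` from main, `t none = σ_p`.
-/
import Mathlib
import Fermat.Agent.S30.Hecke.DoubleCoset
import Fermat.Agent.S30.Hecke.DoubleCosetIndep

set_option autoImplicit false

namespace Fermat.Agent.S48.B.Hecke.CosetRestrict

open Fermat.Agent.S30.Hecke.DoubleCoset

variable {Γ G : Type*} [Group Γ] [Group G] {ι : Γ →* G} {X : Type*}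

/-! ### pulling coset data back along an injective homomorphism -/

section Comap

variable (D : CosetData ι X) {Γ₁ : Type*} [Group Γ₁] (ι₁ : Γ₁ →* G) (j : Γ₁ →* Γ)
  (hj : Function.Injective j) (hι : ∀ g, ι₁ g = ι (j g))
  (hmem : ∀ (g : Γ₁) (x : X), D.coc (j g) x ∈ j.range)

/-- the coset data pulled back along an injective `j : Γ₁ →* Γ` whose image is stable under the
cocycle -/
noncomputable def comap : CosetData ι₁ X where
  rep := D.rep
  perm g := D.perm (j g)
  coc g x := (hmem g x).choose
  rel g x := by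
    rw [hι, hι, (hmem g x).choose_spec]
    exact D.rel (j g) x
  perm_mul g h x := by
    rw [map_mul]
    exact D.perm_mul _ _ _
  coc_mul g h x := by
    apply hj
    have e1 := (hmem (g * h) x).choose_spec
    have e2 := (hmem g x).choose_spec
    have e3 := (hmem h (D.perm (j g) x)).choose_spec
    calc j (hmem (g * h) x).choose = D.coc (j (g * h)) x := e1
      _ = D.coc (j g * j h) x := by rw [map_mul]
      _ = D.coc (j g) x * D.coc (j h) (D.perm (j g) x) := D.coc_mul _ _ _
      _ = j (hmem g x).choose * j (hmem h (D.perm (j g) x)).choose := by rw [e2, e3]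
      _ = j ((hmem g x).choose * (hmem h (D.perm (j g) x)).choose) := (map_mul j _ _).symm

@[simp] theorem comap_rep : (comap D ι₁ j hj hι hmem).rep = D.rep := rfl

@[simp] theorem comap_perm (g : Γ₁) : (comap D ι₁ j hj hι hmem).perm g = D.perm (j g) := rfl

theorem map_comap_coc (g : Γ₁) (x : X) :
    j ((comap D ι₁ j hj hι hmem).coc g x) = D.coc (j g) x :=
  (hmem g x).choose_spec

/-- separated representatives stay separated -/
theorem comap_sep (huniq : ∀ (x x' : X) (g : Γ), D.rep x = ι g * D.rep x' → x = x')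
    (x x' : X) (g : Γ₁)
    (h : (comap D ι₁ j hj hι hmem).rep x = ι₁ g * (comap D ι₁ j hj hι hmem).rep x') : x = x' := by
  rw [comap_rep, hι] at h
  exact huniq x x' (j g) h

variable [Fintype X] {A : Type*} [AddCommGroup A]

/-- the operator of the pulled back data is the restriction of the operator -/
theorem heckeHom_comap (φ : Additive Γ →+ A) :
    (comap D ι₁ j hj hι hmem).heckeHom (φ.comp (MonoidHom.toAdditive j)) =
      (D.heckeHom φ).comp (MonoidHom.toAdditive j) := by
  refine AddMonoidHom.ext fun g' => ?_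
  obtain ⟨g, rfl⟩ := Additive.ofMul.surjective g'
  rw [CosetData.heckeHom_apply]
  show _ = D.heckeHom φ (Additive.ofMul (j g))
  rw [CosetData.heckeHom_apply]
  refine Finset.sum_congr rfl fun x _ => ?_
  show φ (Additive.ofMul (j ((comap D ι₁ j hj hι hmem).coc g x))) = _
  rw [map_comap_coc]

end Comap

/-! ### coset data with a character -/

section Character

variable (D : CosetData ι X) {Q : Type*} [CommGroup Q] (χ : Γ →* Q) (δ : X → Q)
  (K : ∀ g x, χ (D.coc g x) * δ (D.perm g x) = δ x * χ g)
  (t : X → Γ) (c : Q) (ht : ∀ x, χ (t x) * δ x = c)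

include K ht in
/-- the twisted cocycle of an element of `ker χ` lies in `ker χ` -/
theorem chi_twist_coc {g : Γ} (hg : χ g = 1) (x : X) :
    χ (t x * D.coc g x * (t (D.perm g x))⁻¹) = 1 := by
  rw [map_mul, map_mul, map_inv, mul_inv_eq_one]
  apply mul_right_cancel (b := δ (D.perm g x))
  rw [mul_assoc, K, hg, mul_one, ht, ht]

include K ht in
/-- the element that conjugation by `s` produces on the twisted representatives lies in `ker χ` -/
theorem chi_conj_elt (s : Γ) (x : X) :
    χ (s * t x * D.coc s⁻¹ x * (t (D.perm s⁻¹ x))⁻¹) = 1 := by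
  rw [map_mul, map_mul, map_mul, map_inv, mul_inv_eq_one]
  apply mul_right_cancel (b := δ (D.perm s⁻¹ x))
  rw [mul_assoc (χ s * χ (t x)), K, ht, map_inv]
  rw [mul_comm (χ s) (χ (t x)), mul_assoc, ← mul_assoc (χ s), mul_comm (χ s) (δ x),
    mul_assoc (δ x), mul_inv_cancel, mul_one, ht]

variable {Γ₁ : Type*} [Group Γ₁] (ι₁ : Γ₁ →* G) (j : Γ₁ →* Γ)
  (hj : Function.Injective j) (hι : ∀ g, ι₁ g = ι (j g))
  (hrange : ∀ γ : Γ, γ ∈ j.range ↔ χ γ = 1)

include K ht hrange in
theorem twist_coc_mem_range (g : Γ₁) (x : X) :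
    (D.twist (Equiv.refl X) t).coc (j g) x ∈ j.range := by
  have h := CosetData.twist_coc D (Equiv.refl X) t (j g) x
  rw [Equiv.refl_apply] at h
  rw [h, hrange]
  exact chi_twist_coc D χ δ K t c ht ((hrange (j g)).mp ⟨g, rfl⟩) x

/-- **the coset data of `ker χ`** with the representatives `ι (t x) * D.rep x` -/
noncomputable def kerData : CosetData ι₁ X :=
  comap (D.twist (Equiv.refl X) t) ι₁ j hj hι
    (twist_coc_mem_range D χ δ K t c ht j hrange)

theorem kerData_rep (x : X) :
    (kerData D χ δ K t c ht ι₁ j hj hι hrange).rep x = ι (t x) * D.rep x := by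
  have h := CosetData.twist_rep D (Equiv.refl X) t x
  rw [Equiv.refl_apply] at h
  exact h

theorem kerData_perm (g : Γ₁) (x : X) :
    (kerData D χ δ K t c ht ι₁ j hj hι hrange).perm g x = D.perm (j g) x := by
  have h := CosetData.twist_perm D (Equiv.refl X) t (j g) x
  rw [Equiv.refl_apply, Equiv.refl_apply] at h
  exact h

theorem map_kerData_coc (g : Γ₁) (x : X) :
    j ((kerData D χ δ K t c ht ι₁ j hj hι hrange).coc g x) =
      t x * D.coc (j g) x * (t (D.perm (j g) x))⁻¹ := by
  have h := CosetData.twist_coc D (Equiv.refl X) t (j g) x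
  rw [Equiv.refl_apply] at h
  rw [← h]
  exact map_comap_coc _ ι₁ j hj hι _ g x

/-- the representatives of `kerData` are separated if those of `D` are -/
theorem kerData_sep (huniq : ∀ (x x' : X) (g : Γ), D.rep x = ι g * D.rep x' → x = x')
    (x x' : X) (g : Γ₁)
    (h : (kerData D χ δ K t c ht ι₁ j hj hι hrange).rep x =
      ι₁ g * (kerData D χ δ K t c ht ι₁ j hj hι hrange).rep x') : x = x' := by
  rw [kerData_rep, kerData_rep, hι] at h
  refine huniq x x' ((t x)⁻¹ * j g * t x') ?_
  have h1 : D.rep x = (ι (t x))⁻¹ * (ι (j g) * (ι (t x') * D.rep x')) := by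
    rw [← h, inv_mul_cancel_left]
  rw [map_mul, map_mul, map_inv]
  simpa only [mul_assoc] using h1

variable [Fintype X] {A : Type*} [AddCommGroup A]

/-- the operator of `kerData` is the restriction of the operator of `D` -/
theorem heckeHom_kerData (φ : Additive Γ →+ A) :
    (kerData D χ δ K t c ht ι₁ j hj hι hrange).heckeHom (φ.comp (MonoidHom.toAdditive j)) =
      (D.heckeHom φ).comp (MonoidHom.toAdditive j) := by
  unfold kerData
  rw [heckeHom_comap, CosetData.heckeHom_twist]

include K ht in
/-- **the operator of `kerData` commutes with the conjugation by every `s : Γ`** (`c_s` the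
automorphism of `Γ₁` induced by the conjugation by `s`) -/
theorem heckeHom_kerData_comp_conj (hιinj : Function.Injective ι₁)
    (huniq : ∀ (x x' : X) (g : Γ), D.rep x = ι g * D.rep x' → x = x')
    (s : Γ) (cs : Γ₁ →* Γ₁) (hcs : ∀ g, j (cs g) = s * j g * s⁻¹) (φ : Additive Γ₁ →+ A) :
    ((kerData D χ δ K t c ht ι₁ j hj hι hrange).heckeHom φ).comp (MonoidHom.toAdditive cs) =
      (kerData D χ δ K t c ht ι₁ j hj hι hrange).heckeHom
        (φ.comp (MonoidHom.toAdditive cs)) := by
  have hγ : ∀ x : X, ∃ u : Γ₁, j u = s * t x * D.coc s⁻¹ x * (t (D.perm s⁻¹ x))⁻¹ := fun x =>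
    (hrange _).mpr (chi_conj_elt D χ δ K t c ht s x)
  choose u hu using hγ
  refine CosetData.heckeHom_comp_aut (kerData D χ δ K t c ht ι₁ j hj hι hrange) hιinj
    (kerData_sep D χ δ K t c ht ι₁ j hj hι hrange huniq)
    (MulAut.conj (ι s)).toMonoidHom cs ?_ (D.perm s⁻¹) u ?_ φ
  · intro g
    show ι s * ι₁ g * (ι s)⁻¹ = ι₁ (cs g)
    rw [hι, hι, hcs, map_mul, map_mul, map_inv]
  · intro x
    show ι s * (kerData D χ δ K t c ht ι₁ j hj hι hrange).rep x * (ι s)⁻¹ =
      ι₁ (u x) * (kerData D χ δ K t c ht ι₁ j hj hι hrange).rep (D.perm s⁻¹ x)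
    rw [kerData_rep, kerData_rep, hι, hu]
    have hrel := D.rel s⁻¹ x
    rw [map_inv] at hrel
    simp only [map_mul, map_inv, mul_assoc, inv_mul_cancel_left]
    rw [← hrel]

end Character

end Fermat.Agent.S48.B.Hecke.CosetRestrict
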