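/-
Project D (S48, Deligne–Serre), part B, block B5 [B-heq], group-theory half:
the cosets of the Hecke operators `T_p` (`p ∤ M`), `U_p` (`p ∣ M`) on `Γ₁(M)`.

`ι₁ = iota1 M : Γ₁(M) →* GL₂(ℝ)`.  Representatives (Diamond–Shurman 5.2.1, the STANDARD `T_p`):
`some j ↦ [1, j; 0, p]`, `none ↦ σ_p [p, 0; 0, 1]` with `σ_p ∈ Γ₀(M)` of lower right entry `p`
modulo `M`.  No new matrix computation: main's coset data of `T_p`, `U_p` on `Γ₀(M)`
(`S30/Hecke/Gamma0Cosets`) are restricted by the generic engine `CosetRestrict` (coset data with a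
character); the only thing checked here is the lower right entry modulo `M`, read off the relation
`rep x * g = g' * rep x'`.
-/
import Mathlib
import Fermat.Agent.S30.Hecke.Gamma0Cosets
import Fermat.Agent.S48.B.Hecke.CosetRestrict

set_option autoImplicit false

open CongruenceSubgroup Matrix.SpecialLinearGroup ModularForm
open scoped MatrixGroups

noncomputable section

namespace Fermat.Agent.S48.B.Hecke.Gamma1Cosets

open Fermat.Agent.S30.Hecke.DoubleCoset Fermat.Agent.S30.Hecke.Gamma0Cosets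
open Fermat.Agent.S48.B.Hecke.CosetRestrict

/-! ### `Γ₁(M)` inside `Γ₀(M)` -/

/-- the inclusion `Γ₁(M) → GL₂(ℝ)` -/
def iota1 (M : ℕ) : ↥(Gamma1 M) →* GL (Fin 2) ℝ := (mapGL ℝ).comp (Gamma1 M).subtype

theorem iota1_injective (M : ℕ) : Function.Injective (iota1 M) := by
  intro g h hgh
  apply Subtype.ext
  exact mapGL_injective hgh

/-- the inclusion `Γ₁(M) → Γ₀(M)` -/
def incl (M : ℕ) : ↥(Gamma1 M) →* ↥(Gamma0 M) := Subgroup.inclusion (Gamma1_in_Gamma0 M)

theorem incl_injective (M : ℕ) : Function.Injective (incl M) :=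
  Subgroup.inclusion_injective _

theorem iota1_eq (M : ℕ) (g : Gamma1 M) : iota1 M g = iota M (incl M g) := rfl

/-- the character "lower right entry modulo `M`" of `Γ₀(M)`, with values in the units -/
def chi (M : ℕ) : ↥(Gamma0 M) →* (ZMod M)ˣ := (Gamma0Map M).toHomUnits

theorem coe_chi (M : ℕ) (g : Gamma0 M) :
    ((chi M g : (ZMod M)ˣ) : ZMod M) = (((g : SL(2, ℤ)) 1 1 : ℤ) : ZMod M) := rfl

theorem mem_Gamma1_iff (M : ℕ) (g : Gamma0 M) : (g : SL(2, ℤ)) ∈ Gamma1 M ↔ chi M g = 1 := by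
  rw [← Units.val_inj, coe_chi, Units.val_one]
  constructor
  · intro h
    exact ((Gamma1_mem M _).mp h).2.1
  · intro h
    have h1 : g ∈ Gamma1' M := (Gamma1_to_Gamma0_mem g).mpr
      ((Gamma1_to_Gamma0_mem g).mp (show Gamma0Map M g = 1 from h))
    exact (Gamma1_mem M _).mpr ((Gamma1_to_Gamma0_mem g).mp h1)

theorem mem_range_incl_iff (M : ℕ) (g : Gamma0 M) : g ∈ (incl M).range ↔ chi M g = 1 := by
  rw [← mem_Gamma1_iff]
  constructor
  · rintro ⟨u, rfl⟩
    exact u.2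
  · intro h
    exact ⟨⟨(g : SL(2, ℤ)), h⟩, Subtype.ext rfl⟩

/-! ### the relation over `ℤ` -/

/-- from the relation in `GL₂(ℝ)` to the integral relation -/
theorem relZ_of_rel' {N p : ℕ} (hp : p ≠ 0) {x x' : Option (Fin p)} {g g' : Gamma0 N}
    (h : repT p x * iota N g = iota N g' * repT p x') :
    repZ p x * ((g : SL(2, ℤ)) : Matrix (Fin 2) (Fin 2) ℤ) =
      ((g' : SL(2, ℤ)) : Matrix (Fin 2) (Fin 2) ℤ) * repZ p x' := by
  have h1 := congrArg (fun u : GL (Fin 2) ℝ => (u : Matrix (Fin 2) (Fin 2) ℝ)) h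
  simp only [Units.val_mul] at h1
  rw [coe_repT hp, coe_repT hp, coe_iota', coe_iota', ← Matrix.map_mul, ← Matrix.map_mul] at h1
  exact Matrix.map_injective (Int.cast_injective (α := ℝ)) h1

/-- the lower right entry of the integral representatives -/
def deltaZ (p : ℕ) : Option (Fin p) → ℤ
  | some _ => (p : ℤ)
  | none => 1

/-- **the lower right entries in an integral relation** `rep x * g = g' * rep x'`, modulo `M` -/
theorem entry_rel {M p : ℕ} {x x' : Option (Fin p)} {g g' : Gamma0 M}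
    (h : repZ p x * ((g : SL(2, ℤ)) : Matrix (Fin 2) (Fin 2) ℤ) =
      ((g' : SL(2, ℤ)) : Matrix (Fin 2) (Fin 2) ℤ) * repZ p x') :
    ((deltaZ p x : ℤ) : ZMod M) * (((g : SL(2, ℤ)) 1 1 : ℤ) : ZMod M) =
      (((g' : SL(2, ℤ)) 1 1 : ℤ) : ZMod M) * ((deltaZ p x' : ℤ) : ZMod M) := by
  have hc' : (((g' : SL(2, ℤ)) 1 0 : ℤ) : ZMod M) = 0 := Gamma0_mem.mp g'.2
  have h11 := congrFun (congrFun h 1) 1
  rw [Matrix.mul_apply, Matrix.mul_apply, Fin.sum_univ_two, Fin.sum_univ_two] at h11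
  have h11' := congrArg (Int.cast : ℤ → ZMod M) h11
  push_cast at h11'
  rcases x with _ | j <;> rcases x' with _ | j' <;>
    simp only [repZ, deltaZ, Matrix.of_apply, Matrix.cons_val', Matrix.cons_val_zero,
      Matrix.cons_val_one, Matrix.empty_val', Matrix.cons_val_fin_one] at h11' ⊢ <;>
    simp only [Int.cast_zero, Int.cast_one, Int.cast_natCast, zero_mul, mul_zero, zero_add,
      one_mul, mul_one, hc'] at h11' ⊢ <;>
    exact h11'

/-! ### the character data of `T_p`, `p ∤ M` -/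

section TData

variable {M p : ℕ}

/-- `p` as a unit modulo `M` -/
def pUnit (hp : p.Prime) (hpM : ¬ p ∣ M) : (ZMod M)ˣ :=
  ZMod.unitOfCoprime p ((Nat.Prime.coprime_iff_not_dvd hp).mpr hpM)

theorem coe_pUnit (hp : p.Prime) (hpM : ¬ p ∣ M) :
    ((pUnit hp hpM : (ZMod M)ˣ) : ZMod M) = (p : ZMod M) := rfl

/-- the weights: `some j ↦ p`, `none ↦ 1` -/
def delta (hp : p.Prime) (hpM : ¬ p ∣ M) : Option (Fin p) → (ZMod M)ˣ
  | some _ => pUnit hp hpM
  | none => 1

theorem coe_delta (hp : p.Prime) (hpM : ¬ p ∣ M) (x : Option (Fin p)) :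
    ((delta hp hpM x : (ZMod M)ˣ) : ZMod M) = ((deltaZ p x : ℤ) : ZMod M) := by
  rcases x with _ | j
  · simp [delta, deltaZ]
  · simp [delta, deltaZ, coe_pUnit]

/-- **(K) for `T_p`**: `χ (coc g x) * δ (perm g x) = δ x * χ g` -/
theorem chi_cosetT (hp : p.Prime) (hpM : ¬ p ∣ M) (g : Gamma0 M) (x : Option (Fin p)) :
    chi M ((cosetT hp hpM).coc g x) * delta hp hpM ((cosetT hp hpM).perm g x) =
      delta hp hpM x * chi M g := by
  have hrel := (cosetT hp hpM).rel g x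
  rw [cosetT_rep] at hrel
  have hZ := entry_rel (relZ_of_rel' hp.ne_zero hrel)
  apply Units.ext
  rw [Units.val_mul, Units.val_mul, coe_chi, coe_chi, coe_delta, coe_delta]
  exact hZ.symm

/-- an element `σ_n` of `Γ₀(M)` with lower right entry `n`, for `n` prime to `M` -/
def sigmaOf (n : ℕ) (hn : n.Coprime M) : Gamma0 M :=
  mkGamma0 M (Int.gcdA n M) (-Int.gcdB n M) M n
    (by
      have h := Int.gcd_eq_gcd_ab (n : ℤ) (M : ℤ)
      have hcop : Int.gcd (n : ℤ) (M : ℤ) = 1 := by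
        rw [Int.gcd_natCast_natCast]
        exact hn
      rw [hcop] at h
      push_cast at h
      linear_combination -h)
    (dvd_refl _)

theorem chi_sigmaOf (n : ℕ) (hn : n.Coprime M) :
    chi M (sigmaOf n hn) = ZMod.unitOfCoprime n hn := by
  apply Units.ext
  rw [coe_chi, ZMod.coe_unitOfCoprime]
  show (((!![Int.gcdA n M, -Int.gcdB n M; (M : ℤ), (n : ℤ)] : Matrix (Fin 2) (Fin 2) ℤ) 1 1 : ℤ) :
    ZMod M) = _
  simp

/-- `χ : Γ₀(M) → (ℤ/M)ˣ` is onto -/
theorem chi_surjective (M : ℕ) [NeZero M] : Function.Surjective (chi M) := by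
  intro d
  refine ⟨sigmaOf (d : ZMod M).val (ZMod.val_coe_unit_coprime d), ?_⟩
  rw [chi_sigmaOf]
  apply Units.ext
  rw [ZMod.coe_unitOfCoprime, ZMod.natCast_zmod_val]

/-- an element `σ_p` of `Γ₀(M)` with lower right entry `p` -/
def sigma (hp : p.Prime) (hpM : ¬ p ∣ M) : Gamma0 M :=
  sigmaOf p ((Nat.Prime.coprime_iff_not_dvd hp).mpr hpM)

theorem chi_sigma (hp : p.Prime) (hpM : ¬ p ∣ M) : chi M (sigma hp hpM) = pUnit hp hpM :=
  chi_sigmaOf p _

/-- the correction elements: `some j ↦ 1`, `none ↦ σ_p` -/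
def tcorr (hp : p.Prime) (hpM : ¬ p ∣ M) : Option (Fin p) → Gamma0 M
  | some _ => 1
  | none => sigma hp hpM

theorem chi_tcorr (hp : p.Prime) (hpM : ¬ p ∣ M) (x : Option (Fin p)) :
    chi M (tcorr hp hpM x) * delta hp hpM x = pUnit hp hpM := by
  rcases x with _ | j
  · simp [tcorr, delta, chi_sigma]
  · simp [tcorr, delta]

/-- **the coset data of `T_p` on `Γ₁(M)`, `p ∤ M`**: representatives `[1, j; 0, p]` and
`σ_p [p, 0; 0, 1]` -/
def cosetT1 (hp : p.Prime) (hpM : ¬ p ∣ M) : CosetData (iota1 M) (Option (Fin p)) :=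
  kerData (cosetT hp hpM) (chi M) (delta hp hpM) (chi_cosetT hp hpM) (tcorr hp hpM)
    (pUnit hp hpM) (chi_tcorr hp hpM) (iota1 M) (incl M) (incl_injective M) (iota1_eq M)
    (mem_range_incl_iff M)

theorem cosetT1_rep_some (hp : p.Prime) (hpM : ¬ p ∣ M) (j : Fin p) :
    (cosetT1 hp hpM).rep (some j) = heckeMatrix p j := by
  unfold cosetT1
  rw [kerData_rep]
  show iota M 1 * (cosetT hp hpM).rep (some j) = heckeMatrix p j
  rw [map_one, one_mul, cosetT_rep_some]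

theorem cosetT1_rep_none (hp : p.Prime) (hpM : ¬ p ∣ M) :
    (cosetT1 hp hpM).rep none = iota M (sigma hp hpM) * heckeDiagMatrix p := by
  unfold cosetT1
  rw [kerData_rep]
  show iota M (sigma hp hpM) * (cosetT hp hpM).rep none = iota M (sigma hp hpM) * heckeDiagMatrix p
  rw [cosetT_rep_none]

theorem cosetT1_perm (hp : p.Prime) (hpM : ¬ p ∣ M) (g : Gamma1 M) (x : Option (Fin p)) :
    (cosetT1 hp hpM).perm g x = (cosetT hp hpM).perm (incl M g) x :=
  kerData_perm _ _ _ _ _ _ _ _ _ _ _ _ g x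

theorem incl_cosetT1_coc (hp : p.Prime) (hpM : ¬ p ∣ M) (g : Gamma1 M) (x : Option (Fin p)) :
    incl M ((cosetT1 hp hpM).coc g x) =
      tcorr hp hpM x * (cosetT hp hpM).coc (incl M g) x *
        (tcorr hp hpM ((cosetT hp hpM).perm (incl M g) x))⁻¹ :=
  map_kerData_coc _ _ _ _ _ _ _ _ _ _ _ _ g x

/-- the representatives of `T_p` on `Γ₁(M)` are separated -/
theorem cosetT1_sep (hp : p.Prime) (hpM : ¬ p ∣ M) (x x' : Option (Fin p)) (g : Gamma1 M)
    (h : (cosetT1 hp hpM).rep x = iota1 M g * (cosetT1 hp hpM).rep x') : x = x' :=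
  kerData_sep _ _ _ _ _ _ _ _ _ _ _ _ (cosetT_sep hp hpM) x x' g h

end TData

/-! ### the character data of `U_p`, `p ∣ M` -/

section UData

variable {M p : ℕ}

/-- the lower right entries in an integral relation `[1, j; 0, p] * g = g' * [1, j'; 0, p]` -/
theorem entry_rel_U {j j' : Fin p} (hp : p ≠ 0) {g g' : Gamma0 M}
    (h : repZ p (some j) * ((g : SL(2, ℤ)) : Matrix (Fin 2) (Fin 2) ℤ) =
      ((g' : SL(2, ℤ)) : Matrix (Fin 2) (Fin 2) ℤ) * repZ p (some j')) :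
    (((g : SL(2, ℤ)) 1 1 : ℤ) : ZMod M) = (((g' : SL(2, ℤ)) 1 1 : ℤ) : ZMod M) := by
  have hc : (((g : SL(2, ℤ)) 1 0 : ℤ) : ZMod M) = 0 := Gamma0_mem.mp g.2
  have h10 := congrFun (congrFun h 1) 0
  have h11 := congrFun (congrFun h 1) 1
  rw [Matrix.mul_apply, Matrix.mul_apply, Fin.sum_univ_two, Fin.sum_univ_two] at h10 h11
  simp only [repZ, Matrix.of_apply, Matrix.cons_val', Matrix.cons_val_zero,
    Matrix.cons_val_one, Matrix.empty_val', Matrix.cons_val_fin_one, zero_mul, zero_add,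
    mul_one, mul_zero, add_zero] at h10 h11
  have hp' : (p : ℤ) ≠ 0 := by exact_mod_cast hp
  have h2 : (g : SL(2, ℤ)) 1 1 = (g : SL(2, ℤ)) 1 0 * ((j' : ℕ) : ℤ) + (g' : SL(2, ℤ)) 1 1 := by
    apply mul_left_cancel₀ hp'
    rw [h11, ← h10]
    ring
  rw [h2]
  push_cast
  rw [hc, zero_mul, zero_add]

/-- **(K) for `U_p`**: `χ (coc g j) = χ g` -/
theorem chi_cosetU (hp : p.Prime) (hpM : p ∣ M) (g : Gamma0 M) (j : Fin p) :
    chi M ((cosetU hp hpM).coc g j) * (fun _ : Fin p => (1 : (ZMod M)ˣ)) ((cosetU hp hpM).perm g j)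
      = (fun _ : Fin p => (1 : (ZMod M)ˣ)) j * chi M g := by
  have hrel := (cosetU hp hpM).rel g j
  rw [cosetU_rep, cosetU_rep] at hrel
  have hZ := entry_rel_U hp.ne_zero
    (relZ_of_rel' (x := some j) (x' := some ((cosetU hp hpM).perm g j)) hp.ne_zero hrel)
  rw [mul_one, one_mul]
  apply Units.ext
  rw [coe_chi, coe_chi]
  exact hZ.symm

/-- **the coset data of `U_p` on `Γ₁(M)`, `p ∣ M`**: representatives `[1, j; 0, p]` -/
def cosetU1 (hp : p.Prime) (hpM : p ∣ M) : CosetData (iota1 M) (Fin p) :=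
  kerData (cosetU hp hpM) (chi M) (fun _ => 1) (chi_cosetU hp hpM) (fun _ => 1) 1
    (fun _ => by rw [map_one, one_mul]) (iota1 M) (incl M) (incl_injective M) (iota1_eq M)
    (mem_range_incl_iff M)

theorem cosetU1_rep (hp : p.Prime) (hpM : p ∣ M) (j : Fin p) :
    (cosetU1 hp hpM).rep j = heckeMatrix p j := by
  unfold cosetU1
  rw [kerData_rep]
  show iota M 1 * (cosetU hp hpM).rep j = heckeMatrix p j
  rw [map_one, one_mul, cosetU_rep]

theorem cosetU1_perm (hp : p.Prime) (hpM : p ∣ M) (g : Gamma1 M) (j : Fin p) :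
    (cosetU1 hp hpM).perm g j = (cosetU hp hpM).perm (incl M g) j :=
  kerData_perm _ _ _ _ _ _ _ _ _ _ _ _ g j

theorem incl_cosetU1_coc (hp : p.Prime) (hpM : p ∣ M) (g : Gamma1 M) (j : Fin p) :
    incl M ((cosetU1 hp hpM).coc g j) = (cosetU hp hpM).coc (incl M g) j := by
  have h := map_kerData_coc (cosetU hp hpM) (chi M) (fun _ => 1) (chi_cosetU hp hpM)
    (fun _ => 1) 1 (fun _ => by rw [map_one, one_mul]) (iota1 M) (incl M) (incl_injective M)
    (iota1_eq M) (mem_range_incl_iff M) g j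
  exact h.trans (by rw [one_mul, inv_one, mul_one])

/-- the representatives of `U_p` on `Γ₁(M)` are separated -/
theorem cosetU1_sep (hp : p.Prime) (hpM : p ∣ M) (j j' : Fin p) (g : Gamma1 M)
    (h : (cosetU1 hp hpM).rep j = iota1 M g * (cosetU1 hp hpM).rep j') : j = j' :=
  kerData_sep _ _ _ _ _ _ _ _ _ _ _ _ (cosetU_sep hp hpM) j j' g h

end UData

/-! ### the operators -/

section Operators

variable {M p : ℕ} {A : Type*} [AddCommGroup A]

/-- **`τ_p` for `p ∤ M`** on `Hom(Γ₁(M), A)` -/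
def tau1T (hp : p.Prime) (hpM : ¬ p ∣ M) :
    (Additive (Gamma1 M) →+ A) →+ (Additive (Gamma1 M) →+ A) :=
  (cosetT1 hp hpM).heckeHom

/-- **`τ_p` for `p ∣ M`** on `Hom(Γ₁(M), A)` -/
def tau1U (hp : p.Prime) (hpM : p ∣ M) :
    (Additive (Gamma1 M) →+ A) →+ (Additive (Gamma1 M) →+ A) :=
  (cosetU1 hp hpM).heckeHom

/-- `τ_r` for every prime `r` -/
def tau1All (M : ℕ) (r : ℕ) (hr : r.Prime) :
    (Additive (Gamma1 M) →+ A) →+ (Additive (Gamma1 M) →+ A) :=
  if h : r ∣ M then tau1U hr h else tau1T hr h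

theorem tau1All_pos {r : ℕ} (hr : r.Prime) (h : r ∣ M) :
    (tau1All M r hr : (Additive (Gamma1 M) →+ A) →+ (Additive (Gamma1 M) →+ A)) = tau1U hr h :=
  dif_pos h

theorem tau1All_neg {r : ℕ} (hr : r.Prime) (h : ¬ r ∣ M) :
    (tau1All M r hr : (Additive (Gamma1 M) →+ A) →+ (Additive (Gamma1 M) →+ A)) = tau1T hr h :=
  dif_neg h

/-- restriction of homomorphisms from `Γ₀(M)` to `Γ₁(M)` -/
def resHom (M : ℕ) (A : Type*) [AddCommGroup A] :
    (Additive (Gamma0 M) →+ A) →+ (Additive (Gamma1 M) →+ A) where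
  toFun φ := φ.comp (MonoidHom.toAdditive (incl M))
  map_zero' := rfl
  map_add' _ _ := rfl

/-- `τ_p` on `Γ₁(M)` restricts `τ_p` on `Γ₀(M)` (`p ∤ M`) -/
theorem tau1T_resHom (hp : p.Prime) (hpM : ¬ p ∣ M) (φ : Additive (Gamma0 M) →+ A) :
    tau1T hp hpM (resHom M A φ) = resHom M A (tauT hp hpM φ) :=
  heckeHom_kerData _ _ _ _ _ _ _ _ _ _ _ _ φ

/-- `τ_p` on `Γ₁(M)` restricts `τ_p` on `Γ₀(M)` (`p ∣ M`) -/
theorem tau1U_resHom (hp : p.Prime) (hpM : p ∣ M) (φ : Additive (Gamma0 M) →+ A) :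
    tau1U hp hpM (resHom M A φ) = resHom M A (tauU hp hpM φ) :=
  heckeHom_kerData _ _ _ _ _ _ _ _ _ _ _ _ φ

end Operators

end Fermat.Agent.S48.B.Hecke.Gamma1Cosets
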